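import Mathlib

/-!
# Fermat's Last Theorem for exponent 5

Descent in the ring `ℤ[φ]`, `φ² = φ + 1`. Writing `H a b` for the norm of
`a² + a b + b² + b² φ`, the condition "`H a b` is a fifth power, `5 ∣ b` and `b` is a fifth power
up to powers of `5`" reproduces itself with a smaller `b`.
-/

set_option autoImplicit false

namespace Fermat.Agent.SmallLevels.Five

attribute [local simp] QuadraticAlgebra.re_one QuadraticAlgebra.im_one

/-- The ring `ℤ[φ]`. -/
abbrev GoldenInt : Type := QuadraticAlgebra ℤ 1 1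

/-- The quartic form of the descent. -/
private def quart (a b : ℤ) : ℤ :=
  a ^ 4 + 2 * a ^ 3 * b + 4 * a ^ 2 * b ^ 2 + 3 * a * b ^ 3 + b ^ 4

lemma isCoprime_of_prime_not_dvd {a b : ℤ}
    (h : ∀ p : ℕ, p.Prime → (p : ℤ) ∣ a → ¬ (p : ℤ) ∣ b) : IsCoprime a b := by
  rw [Int.isCoprime_iff_gcd_eq_one]
  by_contra hne
  obtain ⟨p, hp, hpd⟩ := Nat.exists_prime_and_dvd hne
  exact h p hp ((Int.natCast_dvd_natCast.2 hpd).trans (Int.gcd_dvd_left _ _))
    ((Int.natCast_dvd_natCast.2 hpd).trans (Int.gcd_dvd_right _ _))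

lemma prime_five : Prime (5 : ℤ) := by
  have : Prime ((5 : ℕ) : ℤ) := Nat.prime_iff_prime_int.1 (by norm_num)
  simpa using this

lemma five_dvd_iff (w : ℤ) : (5 : ℤ) ∣ w ↔ (w : ZMod 5) = 0 :=
  (ZMod.intCast_zmod_eq_zero_iff_dvd w 5).symm

lemma norm_eq (z : GoldenInt) : z.norm = z.re ^ 2 + z.re * z.im - z.im ^ 2 := by
  rw [QuadraticAlgebra.norm_def]; ring

lemma eq_zero_of_norm_eq_zero {z : GoldenInt} (h : z.norm = 0) : z = 0 := by
  rw [norm_eq] at h
  have him : z.im = 0 := by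
    by_contra hi
    have h5 : IsSquare ((5 : ℤ) : ℚ) := by
      refine ⟨(2 * z.re + z.im) / z.im, ?_⟩
      have hi' : (z.im : ℚ) ≠ 0 := by exact_mod_cast hi
      have h' : (z.re : ℚ) ^ 2 + z.re * z.im - z.im ^ 2 = 0 := by exact_mod_cast h
      field_simp
      push_cast
      linear_combination -4 * h'
    obtain ⟨r, hr⟩ := Rat.isSquare_intCast_iff.1 h5
    have h1 : r < 3 := by nlinarith
    have h2 : -3 < r := by nlinarith
    interval_cases r <;> norm_num at hr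
  rw [him] at h
  ext
  · simpa using h
  · exact him

lemma isDomain_goldenInt : IsDomain GoldenInt := by
  have : NoZeroDivisors GoldenInt := by
    refine ⟨fun {x y} h => ?_⟩
    have h' := congrArg QuadraticAlgebra.norm h
    rw [map_mul, QuadraticAlgebra.norm_zero, mul_eq_zero] at h'
    exact h'.imp eq_zero_of_norm_eq_zero eq_zero_of_norm_eq_zero
  exact NoZeroDivisors.to_isDomain GoldenInt

lemma exists_nearest (A : ℤ) {N : ℤ} (hN : N ≠ 0) :
    ∃ q : ℤ, 4 * (A - q * N) ^ 2 ≤ N ^ 2 := by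
  have h1 := Int.emod_nonneg A hN
  have h2 := Int.emod_lt_abs A hN
  have h3 : A % N = A - A / N * N := by rw [Int.emod_def]; ring
  rcases le_or_gt (2 * (A % N)) |N| with h | h
  · exact ⟨A / N, by rw [← h3, ← sq_abs N]; nlinarith⟩
  · rcases abs_choice N with hs | hs
    · exact ⟨A / N + 1, by
        rw [show A - (A / N + 1) * N = A % N - |N| by rw [h3, hs]; ring, ← sq_abs N]; nlinarith⟩
    · exact ⟨A / N - 1, by
        rw [show A - (A / N - 1) * N = A % N - |N| by rw [h3, hs]; ring, ← sq_abs N]; nlinarith⟩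

lemma exists_division (x : GoldenInt) {y : GoldenInt} (hy : y ≠ 0) :
    ∃ q : GoldenInt, (x - q * y).norm.natAbs < y.norm.natAbs := by
  set N := y.norm with hN
  have hN0 : N ≠ 0 := fun h => hy (eq_zero_of_norm_eq_zero h)
  obtain ⟨q₁, h1⟩ := exists_nearest (x * star y).re hN0
  obtain ⟨q₂, h2⟩ := exists_nearest (x * star y).im hN0
  refine ⟨⟨q₁, q₂⟩, ?_⟩
  set r := (x * star y).re - q₁ * N with hr
  set s := (x * star y).im - q₂ * N with hs
  have key : (x - (⟨q₁, q₂⟩ : GoldenInt) * y).norm * N = r ^ 2 + r * s - s ^ 2 := by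
    have e : ((x - (⟨q₁, q₂⟩ : GoldenInt) * y) * star y).norm = r ^ 2 + r * s - s ^ 2 := by
      have hyy : y * star y = algebraMap ℤ GoldenInt N :=
        (QuadraticAlgebra.algebraMap_norm_eq_mul_star y).symm
      rw [sub_mul, mul_assoc, hyy, norm_eq, hr, hs]
      simp
    rwa [map_mul, QuadraticAlgebra.norm_star, ← hN] at e
  rw [Int.natAbs_lt_iff_sq_lt]
  have hNpos : 0 < N ^ 2 := by positivity
  have hu : -(3 * N ^ 2) ≤ 4 * (r ^ 2 + r * s - s ^ 2) := by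
    nlinarith [sq_nonneg (r + s), sq_nonneg r, sq_nonneg s]
  have hl : 4 * (r ^ 2 + r * s - s ^ 2) ≤ 3 * N ^ 2 := by
    nlinarith [sq_nonneg (r - s), sq_nonneg r, sq_nonneg s]
  rw [← key] at hu hl
  set D := (x - (⟨q₁, q₂⟩ : GoldenInt) * y).norm
  have h3 : 16 * (D * N) ^ 2 ≤ 9 * (N ^ 2) ^ 2 := by nlinarith
  by_contra hcon
  push Not at hcon
  nlinarith [mul_le_mul_of_nonneg_right hcon hNpos.le]

lemma isPrincipalIdealRing_goldenInt : IsPrincipalIdealRing GoldenInt := by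
  refine ⟨fun I => ?_⟩
  by_cases hI : I = ⊥
  · subst hI; exact bot_isPrincipal
  classical
  obtain ⟨g₀, hg₀, hg₀'⟩ := Submodule.exists_mem_ne_zero_of_ne_bot hI
  have hex : ∃ n, ∃ g ∈ I, g ≠ 0 ∧ g.norm.natAbs = n := ⟨_, g₀, hg₀, hg₀', rfl⟩
  obtain ⟨g, hg, hg', hn⟩ := Nat.find_spec hex
  refine ⟨g, le_antisymm (fun x hx => ?_) (by simpa [Submodule.span_le] using hg)⟩
  obtain ⟨q, hq⟩ := exists_division x hg'
  rw [Submodule.mem_span_singleton]
  refine ⟨q, ?_⟩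
  by_contra hne
  exact Nat.find_min hex (hn ▸ hq)
    ⟨x - q * g, I.sub_mem hx (I.mul_mem_left q hg),
      sub_ne_zero.2 (fun h => hne h.symm), rfl⟩

/-- The fundamental unit `φ`. -/
private def phi : GoldenIntˣ where
  val := ⟨0, 1⟩
  inv := ⟨-1, 1⟩
  val_inv := by ext <;> simp
  inv_val := by ext <;> simp

lemma unit_decomposition (u : GoldenIntˣ) :
    ∃ (v : GoldenIntˣ) (r : ℕ), r < 5 ∧ u = v ^ 5 * phi ^ r := by
  induction hn : (u : GoldenInt).re.natAbs + (u : GoldenInt).im.natAbs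
    using Nat.strong_induction_on generalizing u with
  | _ n ih =>
  subst hn
  obtain ⟨c, hc⟩ : ∃ c, (u : GoldenInt).re = c := ⟨_, rfl⟩
  obtain ⟨d, hd⟩ : ∃ d, (u : GoldenInt).im = d := ⟨_, rfl⟩
  have hN : c ^ 2 + c * d - d ^ 2 = 1 ∨ c ^ 2 + c * d - d ^ 2 = -1 := by
    have := QuadraticAlgebra.isUnit_iff_norm_isUnit.1 u.isUnit
    rw [norm_eq, hc, hd, Int.isUnit_iff] at this
    exact this
  rcases lt_trichotomy (c * d) 0 with hcd | hcd | hcd
  · have hlt : (u * phi : GoldenIntˣ).1.re.natAbs + (u * phi : GoldenIntˣ).1.im.natAbs <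
        c.natAbs + d.natAbs := by
      have h1 : (u * phi : GoldenIntˣ).1.re = d := by simp [phi, hd]
      have h2 : (u * phi : GoldenIntˣ).1.im = c + d := by simp [phi, hc, hd]
      rw [h1, h2]
      rcases mul_neg_iff.1 hcd with ⟨hc', hd'⟩ | ⟨hc', hd'⟩
      · have : -d ≤ c := by by_contra hlt; rcases hN with h | h <;> nlinarith
        omega
      · have : d ≤ -c := by by_contra hlt; rcases hN with h | h <;> nlinarith
        omega
    obtain ⟨v, r, hr, huv⟩ := ih _ (by rw [hc, hd]; exact hlt) (u * phi) rfl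
    rcases r with _ | r
    · refine ⟨v * phi⁻¹, 4, by norm_num, mul_right_cancel (b := phi) ?_⟩
      rw [huv, mul_pow, mul_assoc, mul_assoc, ← pow_succ, ← mul_pow, inv_mul_cancel, one_pow,
        pow_zero]
    · refine ⟨v, r, by omega, mul_right_cancel (b := phi) ?_⟩
      rw [huv, mul_assoc, ← pow_succ]
  · rcases mul_eq_zero.1 hcd with rfl | rfl
    · have h1 : d = 1 ∨ d = -1 := sq_eq_one_iff.1 (by rcases hN with h | h <;> nlinarith)
      rcases h1 with rfl | rfl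
      · exact ⟨1, 1, by norm_num, by ext <;> simp [phi, hc, hd]⟩
      · exact ⟨-1, 1, by norm_num, by ext <;> simp [phi, hc, hd, Odd.neg_pow (by decide : Odd 5)]⟩
    · have h1 : c = 1 ∨ c = -1 := sq_eq_one_iff.1 (by rcases hN with h | h <;> nlinarith)
      rcases h1 with rfl | rfl
      · exact ⟨1, 0, by norm_num, by ext <;> simp [hc, hd]⟩
      · exact ⟨-1, 0, by norm_num, by ext <;> simp [hc, hd, Odd.neg_pow (by decide : Odd 5)]⟩
  · have hlt : (u * phi⁻¹ : GoldenIntˣ).1.re.natAbs + (u * phi⁻¹ : GoldenIntˣ).1.im.natAbs <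
        c.natAbs + d.natAbs := by
      have h1 : (u * phi⁻¹ : GoldenIntˣ).1.re = d - c := by simp [phi, hc, hd]; ring
      have h2 : (u * phi⁻¹ : GoldenIntˣ).1.im = c := by simp [phi, hc, hd]
      rw [h1, h2]
      rcases mul_pos_iff.1 hcd with ⟨hc', hd'⟩ | ⟨hc', hd'⟩
      · have : c ≤ d := by by_contra hlt; rcases hN with h | h <;> nlinarith
        omega
      · have : d ≤ c := by by_contra hlt; rcases hN with h | h <;> nlinarith
        omega
    obtain ⟨v, r, hr, huv⟩ := ih _ (by rw [hc, hd]; exact hlt) (u * phi⁻¹) rfl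
    rw [mul_inv_eq_iff_eq_mul] at huv
    rcases Nat.lt_or_ge r 4 with h4 | h4
    · exact ⟨v, r + 1, by omega, by rw [huv, mul_assoc, ← pow_succ]⟩
    · obtain rfl : r = 4 := by omega
      exact ⟨v * phi, 0, by norm_num, by
        rw [huv, mul_assoc, ← pow_succ, mul_pow, pow_zero, mul_one]⟩

lemma pow_five_im (a b : ℤ) :
    ((⟨a, b⟩ : GoldenInt) ^ 5).im = 5 * b * quart a b := by
  simp [pow_succ, quart]; ring

lemma pow_five_re (a b : ℤ) : ((⟨a, b⟩ : GoldenInt) ^ 5).re =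
    a ^ 5 + 3 * b ^ 5 + 5 * (2 * a ^ 3 * b ^ 2 + 2 * a ^ 2 * b ^ 3 + 2 * a * b ^ 4) := by
  simp [pow_succ]; ring

/-- The fifth-root lemma. -/
lemma exists_root {R M n : ℤ} (co : IsCoprime R M) (h5 : (5 : ℤ) ∣ M)
    (h : R ^ 2 + R * M - M ^ 2 = n ^ 5) :
    ∃ a b : ℤ, IsCoprime a b ∧ ¬ (5 : ℤ) ∣ 2 * a + b ∧ M = 5 * b * quart a b := by
  have := isDomain_goldenInt
  have := isPrincipalIdealRing_goldenInt
  let : GCDMonoid GoldenInt := IsBezout.toGCDDomain GoldenInt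
  have h5R : ¬ (5 : ℤ) ∣ R := fun hd => prime_five.not_isUnit (co.isUnit_of_dvd' hd h5)
  set α : GoldenInt := ⟨R, M⟩ with hα
  obtain ⟨x, y, hxy⟩ : IsCoprime (n ^ 5) (2 * R + M) := by
    refine isCoprime_of_prime_not_dvd fun p hp hpn hpt => ?_
    have hp' := Nat.prime_iff_prime_int.1 hp
    have hd : (p : ℤ) ∣ 5 * M ^ 2 := by
      have := dvd_sub (hpt.mul_left (2 * R + M)) (hpn.mul_left 4)
      rwa [← h, show (2 * R + M) * (2 * R + M) - 4 * (R ^ 2 + R * M - M ^ 2) = 5 * M ^ 2 by ring]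
        at this
    rcases hp'.dvd_or_dvd hd with h1 | h1
    · have : p = 5 := (Nat.prime_dvd_prime_iff_eq hp (by norm_num)).1 (by exact_mod_cast h1)
      subst this
      push_cast at hpt
      exact h5R ((prime_five.dvd_or_dvd ((dvd_add_left h5).1 hpt)).resolve_left (by norm_num))
    · have hpM : (p : ℤ) ∣ M := hp'.dvd_of_dvd_pow h1
      have hpR : (p : ℤ) ∣ R := hp'.dvd_of_dvd_pow (n := 2) (by
        have := dvd_add (dvd_sub hpn (hpM.mul_left R)) (dvd_pow hpM two_ne_zero)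
        rwa [← h, show R ^ 2 + R * M - M ^ 2 - R * M + M ^ 2 = R ^ 2 by ring] at this)
      exact hp'.not_isUnit (co.isUnit_of_dvd' hpR hpM)
  have hcop : IsCoprime α (star α) := by
    refine ⟨(x : GoldenInt) * star α + y, y, ?_⟩
    ext
    · simp [hα]; linear_combination hxy + x * h
    · simp [hα]; ring
  have hprod : α * star α = (n : GoldenInt) ^ 5 := by
    rw [← QuadraticAlgebra.algebraMap_norm_eq_mul_star, norm_eq, hα, ← Int.cast_pow, ← h]
    simp
  obtain ⟨β, w, hw⟩ := exists_associated_pow_of_mul_eq_pow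
    ((gcd_isUnit_iff_isRelPrime).2 hcop.isRelPrime) hprod
  obtain ⟨v, r, hr, rfl⟩ := unit_decomposition w
  obtain ⟨γ, hγ⟩ : ∃ γ : GoldenInt, α = γ ^ 5 * (phi : GoldenInt) ^ r :=
    ⟨β * v, by rw [← hw]; push_cast; ring⟩
  obtain ⟨a, b, rfl⟩ : ∃ a b : ℤ, γ = ⟨a, b⟩ := ⟨γ.re, γ.im, rfl⟩
  have him := pow_five_im a b
  have hre := pow_five_re a b
  generalize (⟨a, b⟩ : GoldenInt) ^ 5 = g at *
  obtain ⟨g₁, g₂⟩ := g
  simp only at him hre
  have h5g : (5 : ℤ) ∣ g₂ := ⟨b * quart a b, by rw [him]; ring⟩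
  have hr0 : r = 0 := by
    have hz := congrArg QuadraticAlgebra.im hγ
    have hz' := congrArg QuadraticAlgebra.re hγ
    interval_cases r <;> simp [hα, phi, pow_succ] at hz hz' ⊢ <;>
      (apply h5R; omega)
  subst hr0
  simp [hα] at hγ
  obtain ⟨rfl, rfl⟩ := hγ
  refine ⟨a, b, ?_, ?_, him⟩
  · refine isCoprime_of_prime_not_dvd fun p hp ha hb => ?_
    refine (Nat.prime_iff_prime_int.1 hp).not_isUnit (co.isUnit_of_dvd' ?_ ?_)
    · rw [hre]
      exact dvd_add (dvd_add (dvd_pow ha (by norm_num)) ((dvd_pow hb (by norm_num)).mul_left 3))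
        (Dvd.dvd.mul_left (dvd_add (dvd_add ((dvd_pow hb two_ne_zero).mul_left _)
          ((dvd_pow hb (by norm_num)).mul_left _)) ((dvd_pow hb (by norm_num)).mul_left _)) 5)
    · rw [him]
      exact (hb.mul_left 5).mul_right _
  · intro hd
    apply h5R
    rw [hre]
    have hz : ((2 * a + b : ℤ) : ZMod 5) = 0 := (five_dvd_iff _).1 hd
    refine (five_dvd_iff _).2 ?_
    push_cast at hz ⊢
    have h50 : (5 : ZMod 5) = 0 := rfl
    rw [h50, zero_mul, add_zero]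
    exact (by decide : ∀ a b : ZMod 5, 2 * a + b = 0 → a ^ 5 + 3 * b ^ 5 = 0) _ _ hz

lemma coprime_quart {a b : ℤ} (co : IsCoprime a b) (h5 : ¬ (5 : ℤ) ∣ 2 * a + b) :
    IsCoprime (quart a b) (5 * b) := by
  refine IsCoprime.mul_right ?_ ?_
  · refine (prime_five.coprime_iff_not_dvd.2 fun hd => h5 ?_).symm
    rw [five_dvd_iff] at hd ⊢
    simp only [quart, Int.cast_add, Int.cast_mul, Int.cast_pow, Int.cast_ofNat] at hd ⊢
    exact (by decide : ∀ a b : ZMod 5,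
      a ^ 4 + 2 * a ^ 3 * b + 4 * a ^ 2 * b ^ 2 + 3 * a * b ^ 3 + b ^ 4 = 0 → 2 * a + b = 0) _ _ hd
  · rw [show quart a b = a ^ 4 + (2 * a ^ 3 + 4 * a ^ 2 * b + 3 * a * b ^ 2 + b ^ 3) * b by
      rw [quart]; ring]
    exact co.pow_left.add_mul_right_left _

lemma split_off {H c w : ℤ} {i j : ℕ} (co : IsCoprime H (5 * c))
    (h : (5 : ℤ) ^ i * c * H = 5 ^ j * w ^ 5) :
    ∃ n d : ℤ, H = n ^ 5 ∧ (5 : ℤ) ^ i * c = 5 ^ j * d ^ 5 := by
  rcases eq_or_ne H 0 with rfl | hH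
  · exact absurd (isCoprime_zero_left.1 co) fun hu => prime_five.not_isUnit
      (isUnit_of_mul_isUnit_left hu)
  obtain ⟨K, hK⟩ : H ∣ w ^ 5 :=
    (co.of_mul_right_left.pow_right (n := j)).dvd_of_dvd_mul_left ⟨5 ^ i * c, by rw [← h]; ring⟩
  have hcK : (5 : ℤ) ^ i * c = 5 ^ j * K :=
    mul_right_cancel₀ hH (by rw [h, hK]; ring)
  have hodd : Odd 5 := by decide
  have coHK : IsCoprime H K :=
    IsCoprime.of_isCoprime_of_dvd_right
      ((co.of_mul_right_left.pow_right (n := i)).mul_right co.of_mul_right_right)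
      ⟨5 ^ j, by rw [hcK]; ring⟩
  obtain ⟨n, hn⟩ := Int.eq_pow_of_mul_eq_pow_odd_left coHK hodd hK.symm
  obtain ⟨d, hd⟩ := Int.eq_pow_of_mul_eq_pow_odd_right coHK hodd hK.symm
  exact ⟨n, d, hn, hd ▸ hcK⟩

lemma descent (a b n d : ℤ) (i j : ℕ) (co : IsCoprime a b) (hb5 : (5 : ℤ) ∣ b) (hb : b ≠ 0)
    (hH : quart a b = n ^ 5) (hbd : (5 : ℤ) ^ i * b = 5 ^ j * d ^ 5) : False := by
  induction hn : b.natAbs using Nat.strong_induction_on generalizing a b n d i j with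
  | _ k ih =>
  subst hn
  obtain ⟨a', b', co', h5', hM⟩ := exists_root (R := a ^ 2 + a * b + b ^ 2) (M := b ^ 2) (n := n)
    (by
      rw [show a ^ 2 + a * b + b ^ 2 = a ^ 2 + (a + b) * b by ring]
      exact (co.pow_left.add_mul_right_left _).pow_right)
    (dvd_pow hb5 two_ne_zero) (by rw [← hH, quart]; ring)
  have coH := coprime_quart co' h5'
  obtain ⟨n', d', hn', hd'⟩ := split_off (i := 2 * i + 1) (j := 2 * j) (w := d ^ 2) coH (by
    calc (5 : ℤ) ^ (2 * i + 1) * b' * quart a' b' = (5 ^ i) ^ 2 * (5 * b' * quart a' b') := by ring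
      _ = (5 ^ i * b) ^ 2 := by rw [← hM]; ring
      _ = _ := by rw [hbd]; ring)
  obtain ⟨b₁, hb₁⟩ := hb5
  have hb' : b' ≠ 0 := by rintro rfl; simp at hM; exact hb hM
  have h5b' : (5 : ℤ) ∣ b' := by
    have h1 : (5 : ℤ) ∣ b' * quart a' b' := ⟨b₁ ^ 2, by
      refine mul_left_cancel₀ (by norm_num : (5 : ℤ) ≠ 0) ?_
      rw [← mul_assoc, ← hM, hb₁]; ring⟩
    exact coH.of_mul_right_left.symm.dvd_of_dvd_mul_right h1
  refine ih b'.natAbs ?_ a' b' n' d' (2 * i + 1) (2 * j) co' h5b' hb' hn' hd' rfl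
  rw [Int.natAbs_lt_iff_sq_lt]
  by_contra hcon
  push Not at hcon
  have h25 : (25 : ℤ) ≤ b' ^ 2 := by
    obtain ⟨c, rfl⟩ := h5b'
    have : 0 < c ^ 2 := by
      have : c ≠ 0 := by omega
      positivity
    nlinarith
  have hq : 5 * b' ^ 4 ≤ 16 * quart a' b' := by
    rw [quart]
    nlinarith [sq_nonneg ((2 * a' + b') ^ 2), sq_nonneg ((2 * a' + b') * b')]
  have hq0 : 0 ≤ 5 * b' ^ 4 := by positivity
  have hpow : 25 * (5 * b' ^ 4) ^ 2 * b' ^ 2 ≤ 256 * (b ^ 2) ^ 2 := by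
    have h1 := pow_le_pow_left₀ hq0 hq 2
    have h2 := mul_le_mul_of_nonneg_left h1 (by positivity : (0 : ℤ) ≤ 25 * b' ^ 2)
    calc _ = 25 * b' ^ 2 * (5 * b' ^ 4) ^ 2 := by ring
      _ ≤ _ := h2
      _ = _ := by rw [hM]; ring
  have hbb : (b ^ 2) ^ 2 ≤ (b' ^ 2) ^ 2 := pow_le_pow_left₀ (sq_nonneg _) hcon 2
  have hbpos : 0 < (b' ^ 2) ^ 2 := by positivity
  have h625 : 625 * 25 ^ 3 * (b' ^ 2) ^ 2 ≤ 625 * (b' ^ 2) ^ 3 * (b' ^ 2) ^ 2 := by gcongr
  nlinarith

lemma zmod25_pow_five : ∀ a : ZMod 25, a ^ 5 = 0 ∨ a ^ 5 = 1 ∨ a ^ 5 = 7 ∨ a ^ 5 = 18 ∨ a ^ 5 = 24 :=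
  by decide

lemma five_dvd_of_sum {x y z : ℤ} (h : x ^ 5 + y ^ 5 + z ^ 5 = 0) :
    (5 : ℤ) ∣ x ∨ (5 : ℤ) ∣ y ∨ (5 : ℤ) ∣ z := by
  have hd : ∀ w : ℤ, (w : ZMod 25) ^ 5 = 0 → (5 : ℤ) ∣ w := by
    intro w hw
    rw [← Int.cast_pow, ZMod.intCast_zmod_eq_zero_iff_dvd] at hw
    exact prime_five.dvd_of_dvd_pow ((Dvd.intro 5 (by norm_num)).trans hw)
  have h' := congrArg (Int.cast : ℤ → ZMod 25) h
  push_cast at h'
  rcases zmod25_pow_five x with hx | hx | hx | hx | hx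
  · exact Or.inl (hd x hx)
  all_goals
    rcases zmod25_pow_five y with hy | hy | hy | hy | hy
    · exact Or.inr (Or.inl (hd y hy))
    all_goals
      rcases zmod25_pow_five z with hz | hz | hz | hz | hz
      · exact Or.inr (Or.inr (hd z hz))
      all_goals
        rw [hx, hy, hz] at h'
        exact absurd h' (by decide)

lemma main_case {x y z : ℤ} (co : IsCoprime x y) (hz : z ≠ 0) (h5 : (5 : ℤ) ∣ z)
    (h : x ^ 5 + y ^ 5 = z ^ 5) : False := by
  obtain ⟨t, ht⟩ : (5 : ℤ) ∣ x + y := by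
    rw [five_dvd_iff] at h5 ⊢
    have h' := congrArg (Int.cast : ℤ → ZMod 5) h
    push_cast at h' h5 ⊢
    rw [h5, zero_pow (by norm_num)] at h'
    exact (by decide : ∀ a b : ZMod 5, a ^ 5 + b ^ 5 = 0 → a + b = 0) _ _ h'
  have coY : IsCoprime (x * y) (5 * t) := by
    rw [← ht]
    refine IsCoprime.mul_left ?_ ?_
    · simpa [add_comm] using co.add_mul_left_right 1
    · simpa [add_comm] using co.symm.add_mul_left_right 1
  set Y := x * y with hY
  set N := Y ^ 2 - 25 * t ^ 2 * Y + 125 * t ^ 4 with hN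
  have coN : IsCoprime N (5 * t) := by
    rw [show N = Y ^ 2 + (25 * t ^ 3 - 5 * t * Y) * (5 * t) by rw [hN]; ring]
    exact coY.pow_left.add_mul_right_left _
  have hxy : (5 : ℤ) ^ 2 * t * N = 5 ^ 0 * z ^ 5 := by
    rw [pow_zero, one_mul, ← h, hN, hY]
    obtain rfl : y = 5 * t - x := by rw [← ht]; ring
    ring
  obtain ⟨n, d, hn, hd⟩ := split_off coN hxy
  have coR : IsCoprime (Y - 15 * t ^ 2) (5 * t ^ 2) := by
    have : IsCoprime (Y - 15 * t ^ 2) (5 * t) := by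
      rw [show Y - 15 * t ^ 2 = Y + (-3 * t) * (5 * t) by ring]
      exact coY.add_mul_right_left _
    rw [show 5 * t ^ 2 = 5 * t * t by ring]
    exact this.mul_right this.of_mul_right_right
  obtain ⟨a, b, co', h5', hM⟩ := exists_root coR (dvd_mul_right 5 (t ^ 2)) (n := n)
    (by rw [← hn, hN]; ring)
  have htb : t ^ 2 = b * quart a b :=
    mul_left_cancel₀ (by norm_num : (5 : ℤ) ≠ 0) (by rw [hM]; ring)
  have coH := coprime_quart co' h5'
  obtain ⟨n', d', hn', hd'⟩ := split_off (i := 4) (j := 0) (w := d ^ 2) coH (by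
    calc (5 : ℤ) ^ 4 * b * quart a b = 5 ^ 4 * (b * quart a b) := by ring
      _ = (5 ^ 2 * t) ^ 2 := by rw [← htb]; ring
      _ = _ := by rw [hd]; ring)
  have h5t : (5 : ℤ) ∣ t := by
    obtain ⟨z', rfl⟩ := h5
    refine coN.of_mul_right_left.symm.dvd_of_dvd_mul_right ⟨25 * z' ^ 5, ?_⟩
    exact mul_left_cancel₀ (by norm_num : (25 : ℤ) ≠ 0) (by linear_combination hxy)
  have h5b : (5 : ℤ) ∣ b :=
    coH.of_mul_right_left.symm.dvd_of_dvd_mul_right (htb ▸ dvd_pow h5t two_ne_zero)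
  have hb : b ≠ 0 := by
    rintro rfl
    simp at htb
    simp [htb] at hxy
    exact hz (pow_eq_zero_iff (by norm_num) |>.1 hxy.symm)
  exact descent a b n' d' 4 0 co' h5b hb hn' hd'

/-- Fermat's Last Theorem for exponent 5. -/
theorem fermat_five {a b c : ℤ} (h : a ^ 5 + b ^ 5 = c ^ 5) : a * b * c = 0 := by
  by_contra h0
  simp only [mul_eq_zero, not_or] at h0
  obtain ⟨⟨ha, hb⟩, hc⟩ := h0
  obtain ⟨g, x, y, hg, co, rfl, rfl⟩ :=
    Int.exists_gcd_one' (Int.gcd_pos_of_ne_zero_left b ha)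
  obtain ⟨z, rfl⟩ : (g : ℤ) ∣ c :=
    (Int.pow_dvd_pow_iff (by norm_num : 5 ≠ 0)).1 ⟨x ^ 5 + y ^ 5, by rw [← h]; ring⟩
  have coxy : IsCoprime x y := Int.isCoprime_iff_gcd_eq_one.2 co
  have hg' : (g : ℤ) ^ 5 ≠ 0 := pow_ne_zero 5 (by omega)
  have h' : x ^ 5 + y ^ 5 = z ^ 5 := mul_left_cancel₀ hg' (by linear_combination h)
  have hx : x ≠ 0 := left_ne_zero_of_mul ha
  have hy : y ≠ 0 := left_ne_zero_of_mul hb
  have hz : z ≠ 0 := right_ne_zero_of_mul hc
  rcases five_dvd_of_sum (x := x) (y := y) (z := -z) (by linear_combination h') with h1 | h1 | h1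
  · have co' : IsCoprime z y := by
      have h2 : IsCoprime (z ^ 5) y := by
        rw [← h', show x ^ 5 + y ^ 5 = x ^ 5 + y ^ 4 * y by ring]
        exact coxy.pow_left.add_mul_right_left _
      exact (IsCoprime.pow_left_iff (by norm_num)).1 h2
    exact main_case (x := z) (y := -y) co'.neg_right hx h1 (by linear_combination -h')
  · have co' : IsCoprime z x := by
      have h2 : IsCoprime (z ^ 5) x := by
        rw [← h', show x ^ 5 + y ^ 5 = y ^ 5 + x ^ 4 * x by ring]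
        exact coxy.symm.pow_left.add_mul_right_left _
      exact (IsCoprime.pow_left_iff (by norm_num)).1 h2
    exact main_case (x := z) (y := -x) co'.neg_right hy h1 (by linear_combination -h')
  · exact main_case coxy hz (dvd_neg.1 h1) h'

end Fermat.Agent.SmallLevels.Five
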