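import Mathlib

/-!
# Fermat's Last Theorem for exponent 7

Genocchi's argument: a symmetric identity reduces the equation to rational points on
`Y² = X (X² - 147 X + 5488)`, which has only the point `X = 0`, by descent through the
two-isogenous curve.
-/

set_option autoImplicit false

namespace Fermat.Agent.SmallLevels.Seven

/-- The quartic `s⁴ - 147 s² e² + 5488 e⁴`. -/
private def quartic (s e : ℤ) : ℤ := s ^ 4 - 147 * s ^ 2 * e ^ 2 + 5488 * e ^ 4

lemma isCoprime_of_prime_not_dvd {a b : ℤ}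
    (h : ∀ p : ℕ, p.Prime → (p : ℤ) ∣ a → ¬ (p : ℤ) ∣ b) : IsCoprime a b := by
  rw [Int.isCoprime_iff_gcd_eq_one]
  by_contra hne
  obtain ⟨p, hp, hpd⟩ := Nat.exists_prime_and_dvd hne
  exact h p hp ((Int.natCast_dvd_natCast.2 hpd).trans (Int.gcd_dvd_left _ _))
    ((Int.natCast_dvd_natCast.2 hpd).trans (Int.gcd_dvd_right _ _))

lemma pow_four_split {A B c : ℤ} (hA : 0 < A) (hB : 0 < B) (co : IsCoprime A B)
    (h : A * B = c ^ 4) : ∃ u v : ℤ, A = u ^ 4 ∧ B = v ^ 4 ∧ c.natAbs = (u * v).natAbs := by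
  obtain ⟨A, rfl⟩ := Int.eq_ofNat_of_zero_le hA.le
  obtain ⟨B, rfl⟩ := Int.eq_ofNat_of_zero_le hB.le
  have hN : A * B = c.natAbs ^ 4 := by
    have := congrArg Int.natAbs h
    simpa [Int.natAbs_mul, Int.natAbs_pow] using this
  have coN : Nat.gcd A B = 1 := by
    have := Int.isCoprime_iff_gcd_eq_one.1 co
    simpa [Int.gcd] using this
  obtain ⟨u, hu⟩ := exists_eq_pow_of_mul_eq_pow (a := A) (Nat.isUnit_iff.2 coN) hN
  obtain ⟨v, hv⟩ := exists_eq_pow_of_mul_eq_pow (a := B)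
    (Nat.isUnit_iff.2 (by simpa [gcd_eq_nat_gcd, Nat.gcd_comm] using coN))
    ((mul_comm B A).trans hN)
  refine ⟨u, v, by simp [hu], by simp [hv], ?_⟩
  have : c.natAbs ^ 4 = (u * v) ^ 4 := by rw [mul_pow, ← hu, ← hv, hN]
  have := Nat.pow_left_injective (by norm_num) this
  simpa [Int.natAbs_mul] using this

lemma prime_seven : Prime (7 : ℤ) := by
  have : Prime ((7 : ℕ) : ℤ) := Nat.prime_iff_prime_int.1 (by norm_num)
  simpa using this

lemma eq_of_prime_dvd_prime_pow {p q n : ℕ} (hp : p.Prime) (hq : q.Prime)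
    (h : (p : ℤ) ∣ (q : ℤ) ^ n) : p = q := by
  have : p ∣ q ^ n := by exact_mod_cast h
  exact (Nat.prime_dvd_prime_iff_eq hp hq).1 (hp.dvd_of_dvd_pow this)

/-- First step of the descent: splitting `A * B = 343 e⁴`. -/
lemma descent_first {s e A B : ℤ} (coe : IsCoprime s e) (he : e ≠ 0)
    (hAB : A * B = 343 * e ^ 4) (hdiff : B - A = s ^ 2 - 294 * e ^ 2) :
    ∃ u v : ℤ, IsCoprime u v ∧ ¬ (7 : ℤ) ∣ v ∧ u ≠ 0 ∧ v ≠ 0 ∧ e.natAbs = (u * v).natAbs ∧
      s ^ 2 = v ^ 4 + 294 * u ^ 2 * v ^ 2 - 343 * u ^ 4 := by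
  have e4 : 0 < e ^ 4 := by positivity
  have hABpos : 0 < A * B := by rw [hAB]; positivity
  wlog hApos : 0 < A generalizing A B
  · have hA0 : A ≠ 0 := by rintro rfl; simp at hABpos
    have hB' : B < 0 := by
      rcases mul_pos_iff.1 hABpos with h2 | h2
      · omega
      · exact h2.2
    exact this (A := -B) (B := -A) (by rw [← hAB]; ring) (by rw [← hdiff]; ring)
      (by rw [neg_mul_neg, mul_comm]; exact hABpos) (by omega)
  have hBpos : 0 < B := (pos_iff_pos_of_mul_pos hABpos).1 hApos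
  set t := A + B with hsum'
  have hsum : A + B = t := hsum'.symm
  have h' : t ^ 2 = (s ^ 2 - 294 * e ^ 2) ^ 2 + 1372 * e ^ 4 := by
    rw [hsum', ← hdiff]; linear_combination 4 * hAB
  have coAB : IsCoprime A B := by
    refine isCoprime_of_prime_not_dvd fun p hp hpA hpB => ?_
    have hp' := Nat.prime_iff_prime_int.1 hp
    have hd : (p : ℤ) ∣ s ^ 2 - 294 * e ^ 2 := hdiff ▸ dvd_sub hpB hpA
    have hpt : (p : ℤ) ∣ t := hsum ▸ dvd_add hpA hpB
    have hprod : (p : ℤ) ∣ 343 * e ^ 4 := hAB ▸ hpA.mul_right B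
    rcases hp'.dvd_or_dvd hprod with h2 | h2
    · have : p = 7 := eq_of_prime_dvd_prime_pow (n := 3) hp (by norm_num) (by simpa using h2)
      subst this
      push_cast at hd hpt
      have hs7 : (7 : ℤ) ∣ s := prime_seven.dvd_of_dvd_pow
        ((dvd_sub_left (Dvd.intro (42 * e ^ 2) (by ring))).1 hd)
      obtain ⟨s₁, rfl⟩ := hs7
      obtain ⟨t₁, ht₁⟩ := hpt
      rw [ht₁] at h'
      have h3 : t₁ ^ 2 = 7 * (7 * s₁ ^ 4 - 84 * s₁ ^ 2 * e ^ 2 + 256 * e ^ 4) := by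
        linarith [show 49 * t₁ ^ 2 =
          49 * (7 * (7 * s₁ ^ 4 - 84 * s₁ ^ 2 * e ^ 2 + 256 * e ^ 4)) by linear_combination h']
      obtain ⟨t₂, rfl⟩ : (7 : ℤ) ∣ t₁ := prime_seven.dvd_of_dvd_pow (n := 2) (Dvd.intro _ h3.symm)
      have h4 : (7 : ℤ) ∣ 256 * e ^ 4 :=
        ⟨t₂ ^ 2 - s₁ ^ 4 + 12 * s₁ ^ 2 * e ^ 2, by linarith⟩
      have h5 : (7 : ℤ) ∣ e := prime_seven.dvd_of_dvd_pow
        ((prime_seven.dvd_or_dvd h4).resolve_left (by norm_num))
      exact prime_seven.not_isUnit (coe.isUnit_of_dvd' (dvd_mul_right 7 s₁) h5)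
    · have hpe : (p : ℤ) ∣ e := hp'.dvd_of_dvd_pow h2
      have hps : (p : ℤ) ∣ s := hp'.dvd_of_dvd_pow
        ((dvd_sub_left (Dvd.dvd.mul_left (dvd_pow hpe two_ne_zero) 294)).1 hd)
      exact hp'.not_isUnit (coe.isUnit_of_dvd' hps hpe)
  rcases prime_seven.dvd_or_dvd (hAB ▸ Dvd.intro (49 * e ^ 4) (by ring) : (7 : ℤ) ∣ A * B) with
    h7 | h7
  · have co343 : IsCoprime (343 : ℤ) B := by
      have : IsCoprime (7 : ℤ) B := coAB.of_isCoprime_of_dvd_left h7
      simpa using this.pow_left (m := 3)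
    obtain ⟨A', hA'⟩ : (343 : ℤ) ∣ A := co343.dvd_of_dvd_mul_right (Dvd.intro _ hAB.symm)
    have hA'B : A' * B = e ^ 4 :=
      mul_left_cancel₀ (by norm_num : (343 : ℤ) ≠ 0) (by rw [← hAB, hA']; ring)
    obtain ⟨u, v, hu, hv, hn⟩ := pow_four_split (A := A') (B := B) (by omega) hBpos
      (coAB.of_isCoprime_of_dvd_left (hA' ▸ dvd_mul_left A' 343)) hA'B
    have hu0 : u ≠ 0 := by rintro rfl; simp [hu] at hA'; omega
    have hv0 : v ≠ 0 := by rintro rfl; simp at hv; omega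
    have he2 : e ^ 2 = (u * v) ^ 2 := Int.natAbs_eq_iff_sq_eq.1 hn
    refine ⟨u, v, ?_, ?_, hu0, hv0, hn, ?_⟩
    · rw [hA', hu, hv] at coAB
      exact (IsCoprime.pow_iff (by norm_num) (by norm_num)).1 coAB.of_mul_left_right
    · intro hd
      exact prime_seven.not_isUnit
        (coAB.isUnit_of_dvd' h7 (hv ▸ dvd_pow hd (by norm_num : 4 ≠ 0)))
    · rw [hA', hu, hv, he2] at hdiff
      linear_combination -hdiff
  · exfalso
    have co343 : IsCoprime (343 : ℤ) A := by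
      have : IsCoprime (7 : ℤ) A := coAB.symm.of_isCoprime_of_dvd_left h7
      simpa using this.pow_left (m := 3)
    obtain ⟨B', hB'⟩ : (343 : ℤ) ∣ B := co343.dvd_of_dvd_mul_left (Dvd.intro _ hAB.symm)
    have hAB' : A * B' = e ^ 4 :=
      mul_left_cancel₀ (by norm_num : (343 : ℤ) ≠ 0) (by rw [← hAB, hB']; ring)
    obtain ⟨v, u, hv, hu, hn⟩ := pow_four_split (A := A) (B := B') hApos (by omega)
      (coAB.of_isCoprime_of_dvd_right (hB' ▸ dvd_mul_left B' 343)) hAB'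
    have he2 : e ^ 2 = (v * u) ^ 2 := Int.natAbs_eq_iff_sq_eq.1 hn
    have hv7 : (v : ZMod 7) ≠ 0 := by
      intro hd
      rw [ZMod.intCast_zmod_eq_zero_iff_dvd] at hd
      exact prime_seven.not_isUnit
        (coAB.isUnit_of_dvd' (hv ▸ dvd_pow hd (by norm_num : 4 ≠ 0)) h7)
    rw [hB', hu, hv, he2] at hdiff
    have key : s ^ 2 + v ^ 4 = 7 * (49 * u ^ 4 + 42 * v ^ 2 * u ^ 2) := by
      linear_combination -hdiff
    have key' := congrArg (Int.cast : ℤ → ZMod 7) key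
    push_cast at key'
    have h70 : (7 : ZMod 7) = 0 := rfl
    rw [h70, zero_mul] at key'
    exact (by decide : ∀ a b : ZMod 7, b ≠ 0 → a ^ 2 + b ^ 4 ≠ 0) _ _ hv7 key'

/-- Second step of the descent, back to the original quartic. -/
lemma descent_second {s u v : ℤ} (hs : Odd s) (co : IsCoprime u v) (h7 : ¬ (7 : ℤ) ∣ v)
    (hu : u ≠ 0) (h : s ^ 2 = v ^ 4 + 294 * u ^ 2 * v ^ 2 - 343 * u ^ 4) :
    ∃ s' e' t' : ℤ, quartic s' e' = t' ^ 2 ∧ e' ≠ 0 ∧ e'.natAbs ≤ u.natAbs := by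
  have hodd : Odd (v ^ 2 + 147 * u ^ 2) := by
    have : Odd (s ^ 2) := hs.pow
    rw [h] at this
    simp [parity_simps, show Even (294 : ℤ) from ⟨147, rfl⟩, show ¬ Even (343 : ℤ) from by decide] at this
    simp [parity_simps, show ¬ Even (147 : ℤ) from by decide]
    tauto
  obtain ⟨i, hi⟩ := hodd
  obtain ⟨k, hk⟩ := hs
  have u4 : 0 < u ^ 4 := by positivity
  suffices key : ∀ P Q : ℤ, P * Q = 5488 * u ^ 4 → P + Q = v ^ 2 + 147 * u ^ 2 → (2 : ℤ) ∣ P →
      ∃ s' e' t' : ℤ, quartic s' e' = t' ^ 2 ∧ e' ≠ 0 ∧ e'.natAbs ≤ u.natAbs by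
    have h1 : (i - k) * (i + k + 1) = 5488 * u ^ 4 := by
      subst hk
      nlinarith [h, hi]
    have h2 : (2 : ℤ) ∣ (i - k) * (i + k + 1) := h1 ▸ Dvd.intro (2744 * u ^ 4) (by ring)
    rcases Int.prime_two.dvd_or_dvd h2 with h3 | h3
    · exact key (i - k) (i + k + 1) h1 (by rw [hi]; ring) h3
    · exact key (i + k + 1) (i - k) (by rw [← h1]; ring) (by rw [hi]; ring) h3
  intro P Q hPQ hsum hP2
  have hpos : 0 < P * Q := by rw [hPQ]; positivity
  have hv0 : v ≠ 0 := by rintro rfl; exact h7 (dvd_zero 7)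
  have hsumpos : 0 < P + Q := by rw [hsum]; positivity
  obtain ⟨hPpos, hQpos⟩ : 0 < P ∧ 0 < Q := by
    rcases mul_pos_iff.1 hpos with h2 | h2
    · exact h2
    · omega
  have coPQ : IsCoprime P Q := by
    refine isCoprime_of_prime_not_dvd fun p hp hpP hpQ => ?_
    have hp' := Nat.prime_iff_prime_int.1 hp
    have hA : (p : ℤ) ∣ v ^ 2 + 147 * u ^ 2 := hsum ▸ dvd_add hpP hpQ
    have hprod : (p : ℤ) ∣ 5488 * u ^ 4 := hPQ ▸ hpP.mul_right Q
    rcases hp'.dvd_or_dvd hprod with h2 | h2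
    · rcases hp'.dvd_or_dvd (a := ((2 : ℕ) : ℤ) ^ 4) (b := ((7 : ℕ) : ℤ) ^ 3)
        (by simpa using h2) with h3 | h3
      · have : p = 2 := eq_of_prime_dvd_prime_pow hp Nat.prime_two h3
        subst this
        rw [hi] at hA
        push_cast at hA
        omega
      · have : p = 7 := eq_of_prime_dvd_prime_pow hp (by norm_num) h3
        subst this
        push_cast at hA
        exact h7 (prime_seven.dvd_of_dvd_pow
          ((dvd_add_left (Dvd.intro (21 * u ^ 2) (by ring))).1 hA))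
    · have hpu : (p : ℤ) ∣ u := hp'.dvd_of_dvd_pow h2
      have hpv : (p : ℤ) ∣ v := hp'.dvd_of_dvd_pow
        ((dvd_add_left (Dvd.dvd.mul_left (dvd_pow hpu two_ne_zero) 147)).1 hA)
      exact hp'.not_isUnit (co.isUnit_of_dvd' hpu hpv)
  have co16 : IsCoprime (16 : ℤ) Q := by
    have : IsCoprime (2 : ℤ) Q := coPQ.of_isCoprime_of_dvd_left hP2
    simpa using this.pow_left (m := 4)
  obtain ⟨P', hP'⟩ : (16 : ℤ) ∣ P :=
    co16.dvd_of_dvd_mul_right (hPQ ▸ Dvd.intro (343 * u ^ 4) (by ring))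
  have hP'Q : P' * Q = 343 * u ^ 4 :=
    mul_left_cancel₀ (by norm_num : (16 : ℤ) ≠ 0) (by
      calc 16 * (P' * Q) = P * Q := by rw [hP']; ring
        _ = _ := by rw [hPQ]; ring)
  have coP'Q : IsCoprime P' Q := coPQ.of_isCoprime_of_dvd_left (hP' ▸ dvd_mul_left P' 16)
  rcases prime_seven.dvd_or_dvd (hP'Q ▸ Dvd.intro (49 * u ^ 4) (by ring) : (7 : ℤ) ∣ P' * Q) with
    h | h
  · have co343 : IsCoprime (343 : ℤ) Q := by
      have : IsCoprime (7 : ℤ) Q := coP'Q.of_isCoprime_of_dvd_left h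
      simpa using this.pow_left (m := 3)
    obtain ⟨R, hR⟩ : (343 : ℤ) ∣ P' := co343.dvd_of_dvd_mul_right (Dvd.intro _ hP'Q.symm)
    obtain ⟨p, q, hp, hq, hn⟩ := pow_four_split (A := R) (B := Q) (by omega) hQpos
      (coP'Q.of_isCoprime_of_dvd_left (hR ▸ dvd_mul_left R 343))
      (c := u) (mul_left_cancel₀ (by norm_num : (343 : ℤ) ≠ 0) (by rw [← hP'Q, hR]; ring))
    have hu2 : u ^ 2 = (p * q) ^ 2 := Int.natAbs_eq_iff_sq_eq.1 hn
    have hq0 : q ≠ 0 := by rintro rfl; simp at hq; omega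
    refine ⟨q, p, v, ?_, ?_, ?_⟩
    · rw [hP', hR, hp, hq, hu2] at hsum
      rw [quartic]; linear_combination hsum
    · rintro rfl; simp [hp] at hR; omega
    · rw [hn, Int.natAbs_mul]
      exact Nat.le_mul_of_pos_right _ (Int.natAbs_pos.2 hq0)
  · have co343 : IsCoprime (343 : ℤ) P' := by
      have : IsCoprime (7 : ℤ) P' := coP'Q.symm.of_isCoprime_of_dvd_left h
      simpa using this.pow_left (m := 3)
    obtain ⟨R, hR⟩ : (343 : ℤ) ∣ Q := co343.dvd_of_dvd_mul_left (Dvd.intro _ hP'Q.symm)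
    have hPR : P' * R = u ^ 4 :=
      mul_left_cancel₀ (by norm_num : (343 : ℤ) ≠ 0) (by rw [← hP'Q, hR]; ring)
    have hRQ : R ∣ Q := ⟨343, by rw [hR]; ring⟩
    obtain ⟨p, q, hp, hq, hn⟩ :=
      pow_four_split (by omega) (by omega) (coP'Q.of_isCoprime_of_dvd_right hRQ) hPR
    have hu2 : u ^ 2 = (p * q) ^ 2 := Int.natAbs_eq_iff_sq_eq.1 hn
    have hp0 : p ≠ 0 := by rintro rfl; simp [hP', hp] at hPpos
    refine ⟨4 * p, q, 4 * v, ?_, ?_, ?_⟩
    · rw [hP', hR, hp, hq, hu2] at hsum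
      rw [quartic]; linear_combination 16 * hsum
    · rintro rfl; simp [hq] at hR; omega
    · rw [hn, Int.natAbs_mul]
      exact Nat.le_mul_of_pos_left _ (Int.natAbs_pos.2 hp0)

lemma odd_case {j k t : ℤ} (co : IsCoprime (2 * j) (2 * k + 1))
    (h : quartic (2 * j) (2 * k + 1) = t ^ 2) : False := by
  rw [quartic] at h
  have co4 : IsCoprime (4 * j) (2 * k + 1) := by
    have h2 : IsCoprime (2 : ℤ) (2 * k + 1) := co.of_mul_left_left
    simpa [← mul_assoc] using h2.mul_left co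
  obtain ⟨u, v, -, -, -, -, hn, heq⟩ :=
    descent_first (A := 2 * t - (8 * j ^ 2 - 147 * (2 * k + 1) ^ 2))
      (B := 2 * t + (8 * j ^ 2 - 147 * (2 * k + 1) ^ 2)) co4 (by omega)
      (by linear_combination -4 * h) (by ring)
  have hodd : Odd (u * v).natAbs := hn ▸ Int.natAbs_odd.2 ⟨k, rfl⟩
  obtain ⟨⟨n, hn'⟩, ⟨m, hm'⟩⟩ := Int.odd_mul.1 (Int.natAbs_odd.1 hodd)
  obtain ⟨n₁, hn₁⟩ := (Int.even_mul_succ_self n)
  obtain ⟨m₁, hm₁⟩ := (Int.even_mul_succ_self m)
  have hA : v ^ 2 + 147 * u ^ 2 = 4 * (2 * (m₁ + 147 * n₁ + 18) + 1) := by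
    subst hn' hm'
    linear_combination 4 * hm₁ + 588 * hn₁
  have hz : (2 * (m₁ + 147 * n₁ + 18) + 1) ^ 2 - 1372 * (2 * n + 1) ^ 4 = j ^ 2 := by
    refine mul_left_cancel₀ (by norm_num : (16 : ℤ) ≠ 0) ?_
    rw [← hn']
    linear_combination (-(v ^ 2 + 147 * u ^ 2) - 4 * (2 * (m₁ + 147 * n₁ + 18) + 1)) * hA - heq
  have h8 := congrArg (Int.cast : ℤ → ZMod 8) hz
  push_cast at h8
  exact (by decide : ∀ a b c : ZMod 8, (2 * a + 1) ^ 2 - 1372 * (2 * b + 1) ^ 4 ≠ c ^ 2) _ _ _ h8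

lemma quartic_eq_sq (s e t : ℤ) (h : quartic s e = t ^ 2) : e = 0 := by
  induction hn : e.natAbs using Nat.strong_induction_on generalizing s e t with
  | _ n ih =>
  subst hn
  by_contra he
  have hg0 : s.gcd e ≠ 0 := fun hg => he (Int.gcd_eq_zero_iff.1 hg).2
  rcases Nat.lt_or_ge 1 (s.gcd e) with hg | hg
  · obtain ⟨g, s', e', hgpos, co, rfl, rfl⟩ :=
      Int.exists_gcd_one' (Nat.pos_of_ne_zero hg0)
    have hg' : 1 < g := by
      rw [Int.gcd_mul_right, co, one_mul, Int.natAbs_natCast] at hg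
      exact hg
    have h' : ((g : ℤ) ^ 2) ^ 2 * quartic s' e' = t ^ 2 := by
      rw [← h, quartic, quartic]; ring
    obtain ⟨w, rfl⟩ : (g : ℤ) ^ 2 ∣ t :=
      (Int.pow_dvd_pow_iff two_ne_zero).1 (Dvd.intro _ h')
    have h'' : quartic s' e' = w ^ 2 := by
      refine mul_left_cancel₀ (pow_ne_zero 2 (pow_ne_zero 2 (by omega : (g : ℤ) ≠ 0))) ?_
      rw [h']; ring
    have he' : e' ≠ 0 := fun h0 => he (by simp [h0])
    refine he' (ih e'.natAbs ?_ s' e' w h'' rfl)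
    rw [Int.natAbs_mul, Int.natAbs_natCast]
    exact lt_mul_of_one_lt_right (Int.natAbs_pos.2 he') hg'
  · have co : IsCoprime s e := Int.isCoprime_iff_gcd_eq_one.2 (by omega)
    rcases Int.even_or_odd e with he2 | ⟨k, hk⟩
    · obtain ⟨e', rfl⟩ := even_iff_two_dvd.1 he2
      have he' : e' ≠ 0 := by omega
      have hs : Odd s := by
        rw [← Int.not_even_iff_odd]
        intro hev
        have := co.isUnit_of_dvd' (even_iff_two_dvd.1 hev) (dvd_mul_right 2 e')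
        norm_num [Int.isUnit_iff] at this
      obtain ⟨k, hk⟩ := hs
      have hs : Odd s := ⟨k, hk⟩
      obtain ⟨j, hj⟩ : Odd t := by
        have : Odd (t ^ 2) := by
          rw [← h, quartic]
          obtain rfl := hk
          simp [parity_simps]
        simpa [parity_simps] using this
      obtain ⟨u, v, cuv, h7, hu, hv, hn, heq⟩ :=
        descent_first (A := j - (2 * k ^ 2 + 2 * k - 147 * e' ^ 2))
          (B := j + (2 * k ^ 2 + 2 * k - 147 * e' ^ 2) + 1) co.of_mul_right_right he'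
          (by rw [quartic, hk, hj] at h; nlinarith [h]) (by rw [hk]; ring)
      obtain ⟨s₁, e₁, t₁, hq, he₁, hle⟩ := descent_second hs cuv h7 hu heq
      refine he₁ (ih e₁.natAbs ?_ s₁ e₁ t₁ hq rfl)
      have h1 : u.natAbs ≤ e'.natAbs := by
        rw [hn, Int.natAbs_mul]; exact Nat.le_mul_of_pos_right _ (Int.natAbs_pos.2 hv)
      have h2 : 0 < e'.natAbs := Int.natAbs_pos.2 he'
      have h3 : (2 * e').natAbs = 2 * e'.natAbs := by simp [Int.natAbs_mul]
      omega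
    · -- `e` odd: the first factorisation lands on `u`, `v` odd, impossible 2-adically
      subst hk
      rcases Int.even_or_odd s with ⟨j, hj⟩ | ⟨j, hj⟩
      · rw [← two_mul] at hj
        subst hj
        exact odd_case co h
      · subst hj
        have h8 := congrArg (Int.cast : ℤ → ZMod 8) h
        rw [quartic] at h8
        push_cast at h8
        exact (by decide : ∀ a b c : ZMod 8, (2 * a + 1) ^ 4
          - 147 * (2 * a + 1) ^ 2 * (2 * b + 1) ^ 2 + 5488 * (2 * b + 1) ^ 4 ≠ c ^ 2) _ _ _ h8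

lemma two_case {a c s k t : ℤ}
    (h1 : ∀ x y z : ZMod 8, (a : ZMod 8) * (2 * x + 1) ^ 4
      - 147 * (2 * x + 1) ^ 2 * (2 * y + 1) ^ 2 + 4 * c * (2 * y + 1) ^ 4 ≠ z ^ 2)
    (h2 : ∀ x y z : ZMod 8, 4 * (a : ZMod 8) * x ^ 4
      - 147 * x ^ 2 * (2 * y + 1) ^ 2 + c * (2 * y + 1) ^ 4 ≠ z ^ 2)
    (h : a * s ^ 4 - 147 * s ^ 2 * (2 * k + 1) ^ 2 + 4 * c * (2 * k + 1) ^ 4 = t ^ 2) : False := by
  rcases Int.even_or_odd' s with ⟨j, rfl | rfl⟩
  · obtain ⟨t', rfl⟩ : (2 : ℤ) ∣ t := Int.prime_two.dvd_of_dvd_pow (n := 2)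
      ⟨8 * a * j ^ 4 - 294 * j ^ 2 * (2 * k + 1) ^ 2 + 2 * c * (2 * k + 1) ^ 4,
        by rw [← h]; ring⟩
    have h' : 4 * a * j ^ 4 - 147 * j ^ 2 * (2 * k + 1) ^ 2 + c * (2 * k + 1) ^ 4 = t' ^ 2 :=
      mul_left_cancel₀ (by norm_num : (4 : ℤ) ≠ 0) (by linear_combination h)
    have h8 := congrArg (Int.cast : ℤ → ZMod 8) h'
    push_cast at h8
    exact h2 _ _ _ h8
  · have h8 := congrArg (Int.cast : ℤ → ZMod 8) h
    push_cast at h8
    exact h1 _ _ _ h8

/-- The curve `Y² = X (X² - 147 X + 5488)` has no rational point with `X ≠ 0`. -/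
lemma curve_x_eq_zero {X Y : ℚ} (h : Y ^ 2 = X * (X ^ 2 - 147 * X + 5488)) : X = 0 := by
  by_contra hX
  set n := X.num with hn
  set d : ℤ := ((X.den : ℕ) : ℤ) with hd
  have hd0 : 0 < d := by rw [hd]; exact Int.natCast_pos.2 X.den_pos
  have hn0 : n ≠ 0 := Rat.num_ne_zero.2 hX
  have co : IsCoprime n d := by
    rw [Int.isCoprime_iff_gcd_eq_one]
    exact X.reduced
  have hXnd : X = n / d := by simp [hn, hd, X.num_div_den]
  set Q := n ^ 2 - 147 * n * d + 5488 * d ^ 2 with hQ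
  have hQpos : 0 < Q := by
    nlinarith [sq_nonneg (2 * n - 147 * d), pow_pos hd0 2]
  obtain ⟨z, hz⟩ : IsSquare (n * Q * d) := by
    rw [← Rat.isSquare_intCast_iff]
    refine ⟨Y * d ^ 2, ?_⟩
    have hd' : (d : ℚ) ≠ 0 := by exact_mod_cast hd0.ne'
    rw [hQ, show Y * (d : ℚ) ^ 2 * (Y * d ^ 2) = Y ^ 2 * d ^ 4 by ring, h, hXnd]
    push_cast
    field_simp
  have cond : IsCoprime (n * Q) d := by
    refine co.mul_left ?_
    have : Q = n ^ 2 + (-147 * n + 5488 * d) * d := by rw [hQ]; ring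
    rw [this]
    exact co.pow_left.add_mul_right_left _
  obtain ⟨e, he'⟩ := Int.sq_of_isCoprime cond.symm (c := z)
    (by rw [mul_comm d (n * Q), hz]; ring)
  have he : d = e ^ 2 := by
    rcases he' with h1 | h1
    · exact h1
    · nlinarith [sq_nonneg e]
  have he0 : e ≠ 0 := by rintro rfl; simp at he; omega
  obtain ⟨w, rfl⟩ : e ∣ z := by
    rw [← Int.pow_dvd_pow_iff two_ne_zero, ← he]
    exact Dvd.intro_left (n * Q) (by rw [hz]; ring)
  have hnQ : n * Q = w ^ 2 :=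
    mul_right_cancel₀ hd0.ne' (by rw [hz, he]; ring)
  have hnpos : 0 < n := by
    rcases lt_or_gt_of_ne hn0 with h1 | h1
    · have := mul_neg_of_neg_of_pos h1 hQpos
      nlinarith [sq_nonneg w]
    · exact h1
  obtain ⟨D, s, hD, hDs⟩ : ∃ D s : ℕ, Squarefree D ∧ s ^ 2 * D = n.natAbs := by
    obtain ⟨a, b, h1, h2⟩ := Nat.sq_mul_squarefree n.natAbs
    exact ⟨a, b, h2, h1⟩
  have hnDs : n = (s : ℤ) ^ 2 * D := by
    rw [← Int.natAbs_of_nonneg hnpos.le, ← hDs]; push_cast; ring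
  have hs0 : (s : ℤ) ≠ 0 := by intro h0; rw [h0] at hnDs; simp at hnDs; omega
  obtain ⟨w₁, rfl⟩ : (s : ℤ) ∣ w := by
    rw [← Int.pow_dvd_pow_iff two_ne_zero]
    exact Dvd.intro ((D : ℤ) * Q) (by rw [← hnQ, hnDs]; ring)
  have hDQ : (D : ℤ) * Q = w₁ ^ 2 :=
    mul_left_cancel₀ (pow_ne_zero 2 hs0) (by rw [← mul_assoc, ← hnDs, hnQ]; ring)
  have hDsq : Squarefree (D : ℤ) := Int.squarefree_natCast.2 hD
  obtain ⟨w₂, rfl⟩ : (D : ℤ) ∣ w₁ :=
    (hDsq.dvd_pow_iff_dvd two_ne_zero).1 (Dvd.intro Q hDQ)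
  have hD0 : (D : ℤ) ≠ 0 := hDsq.ne_zero
  have hQD : Q = D * w₂ ^ 2 := mul_left_cancel₀ hD0 (by rw [hDQ]; ring)
  have coDd : IsCoprime (D : ℤ) d := co.of_isCoprime_of_dvd_left ⟨(s : ℤ) ^ 2, by rw [hnDs]; ring⟩
  have hD5488 : (D : ℤ) ∣ 5488 := by
    refine (coDd.pow_right (n := 2)).dvd_of_dvd_mul_right
      ⟨w₂ ^ 2 - (s : ℤ) ^ 4 * D + 147 * (s : ℤ) ^ 2 * d, ?_⟩
    have h1 : n ^ 2 - 147 * n * d + 5488 * d ^ 2 = D * w₂ ^ 2 := hQD
    rw [hnDs] at h1
    linear_combination h1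
  have hD14 : D ∣ 14 := by
    have h1 : D ∣ 5488 := by exact_mod_cast hD5488
    exact (hD.dvd_pow_iff_dvd (by norm_num : (4 : ℕ) ≠ 0)).1 (h1.trans (by norm_num))
  rw [hQ, he, hnDs] at hQD
  have hDle : D ≤ 14 := Nat.le_of_dvd (by norm_num) hD14
  have key : D = 1 ∨ D = 2 ∨ D = 7 ∨ D = 14 := by
    interval_cases D <;> omega
  have heodd : D = 2 ∨ D = 14 → Odd e := by
    intro hD2
    rw [← Int.not_even_iff_odd]
    intro hev
    have h2 : (2 : ℤ) ∣ (D : ℤ) := by rcases hD2 with rfl | rfl <;> norm_num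
    have := coDd.isUnit_of_dvd' h2 (he ▸ dvd_pow (even_iff_two_dvd.1 hev) two_ne_zero)
    norm_num [Int.isUnit_iff] at this
  rcases key with rfl | rfl | rfl | rfl
  · refine he0 (quartic_eq_sq s e w₂ ?_)
    rw [quartic]; push_cast at hQD; linear_combination hQD
  · obtain ⟨k, rfl⟩ := heodd (Or.inl rfl)
    push_cast at hQD
    exact two_case (a := 2) (c := 686) (by decide) (by decide) (t := w₂) (s := (s : ℤ)) (k := k)
      (by linarith)
  · refine hs0 (quartic_eq_sq (28 * e) s (28 * w₂) ?_)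
    rw [quartic]; push_cast at hQD; linear_combination 112 * hQD
  · obtain ⟨k, rfl⟩ := heodd (Or.inr rfl)
    push_cast at hQD
    exact two_case (a := 14) (c := 98) (by decide) (by decide) (t := w₂) (s := (s : ℤ)) (k := k)
      (by linarith)

/-- Genocchi: there is no nontrivial integral solution of `x⁷ + y⁷ + z⁷ = 0`. -/
theorem sum_seventh_powers {x y z : ℤ} (h : x ^ 7 + y ^ 7 + z ^ 7 = 0) : x * y * z = 0 := by
  set s := x + y + z with hs
  set w := (x + y) * (y + z) * (z + x) with hw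
  set t := x * y + y * z + z * x with ht
  have hid : s ^ 7 = 7 * w * (s ^ 4 - s ^ 2 * t + t ^ 2 - s * w) := by
    rw [hs, hw, ht]; linear_combination h
  have hxyz : x * y * z = s * t - w := by rw [hs, hw, ht]; ring
  have hw0 : w = 0 := by
    by_cases h0 : s = 0
    · rw [h0] at hid
      have h1 : w * t ^ 2 = 0 := by linarith [hid]
      rcases mul_eq_zero.1 h1 with h1 | h1
      · exact h1
      · have ht0 : t = 0 := by simpa using h1
        have hxy : x * x + y * y + z * z = 0 := by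
          have : (x + y + z) ^ 2 = 0 := by rw [← hs, h0]; ring
          linear_combination this - 2 * ht0
        have := mul_self_nonneg x; have := mul_self_nonneg y; have := mul_self_nonneg z
        have hx : x = 0 := mul_self_eq_zero.1 (by omega)
        have hy : y = 0 := mul_self_eq_zero.1 (by omega)
        have hz : z = 0 := mul_self_eq_zero.1 (by omega)
        rw [hw, hx, hy, hz]; ring
    · have hs' : (s : ℚ) ≠ 0 := by exact_mod_cast h0
      have hid' : (s : ℚ) ^ 7 = 7 * w * (s ^ 4 - s ^ 2 * t + t ^ 2 - s * w) := by exact_mod_cast hid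
      have := curve_x_eq_zero (X := 196 * w / s ^ 3)
        (Y := 1372 * w * (2 * t - s ^ 2) / s ^ 5) (by
          field_simp
          linear_combination (-1075648 * (w : ℚ)) * hid')
      simp [h0] at this
      exact this
  have hs0 : s = 0 := by
    rw [hw0, mul_zero, zero_mul] at hid
    exact pow_eq_zero_iff (by norm_num) |>.1 hid
  rw [hxyz, hs0, hw0]; ring

/-- Fermat's Last Theorem for exponent 7. -/
theorem fermat_seven {a b c : ℤ} (h : a ^ 7 + b ^ 7 = c ^ 7) : a * b * c = 0 := by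
  have := sum_seventh_powers (x := a) (y := b) (z := -c) (by linear_combination h)
  linarith [this]

end Fermat.Agent.SmallLevels.Seven
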