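import Fermat.Prelude.Def_FLTPrelim_FreyPackage
import Fermat.Agent.SmallLevels.Five
import Fermat.Agent.SmallLevels.Seven

/-! # There is no Frey package with exponent 5 or 7 -/

set_option autoImplicit false

namespace Fermat.Agent.SmallLevels

theorem frey_exponent_ne_five_seven (P : FreyPackage) : P.p ≠ 5 ∧ P.p ≠ 7 := by
  constructor <;> intro h <;> have e := P.hFLT <;> rw [h] at e
  · exact P.habc0 (Five.fermat_five e)
  · exact P.habc0 (Seven.fermat_seven e)

end Fermat.Agent.SmallLevels
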