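/-
Tate normal form coordinates of the multiples of a point, without changing the curve.
-/
import Mathlib.AlgebraicGeometry.EllipticCurve.Affine.Point
import Mathlib.AlgebraicGeometry.EllipticCurve.VariableChange
import Mathlib.Tactic.FieldSimp
import Mathlib.Tactic.LinearCombination
import Mathlib.Tactic.NormNum.Prime

set_option autoImplicit false

open WeierstrassCurve

namespace Fermat.Agent.SmallLevels

variable {F : Type*} [Field F]

/-- `R` is the affine point with coordinates `(x, y)`. -/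
def HasXY {W : WeierstrassCurve F} (R : W.toAffine.Point) (x y : F) : Prop :=
  ∃ h : W.toAffine.Nonsingular x y, R = Affine.Point.some x y h

/-- The `x`-coordinate of a point, `0` at the origin. -/
def pointX {W : WeierstrassCurve F} : W.toAffine.Point → F
  | .zero => 0
  | .some x _ _ => x

theorem HasXY.pointX_eq {W : WeierstrassCurve F} {R : W.toAffine.Point} {x y : F}
    (h : HasXY R x y) : pointX R = x := by
  obtain ⟨h', rfl⟩ := h
  rfl

theorem HasXY.congr {W : WeierstrassCurve F} {R : W.toAffine.Point} {x y x' y' : F}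
    (h : HasXY R x y) (hx : x = x') (hy : y = y') : HasXY R x' y' := by
  subst hx hy
  exact h

theorem pointX_neg {W : WeierstrassCurve F} (R : W.toAffine.Point) : pointX (-R) = pointX R := by
  cases R <;> rfl

/-- Data of a Tate normal form for the curve `W` at the point with coordinates `(x₁, y₁)`. -/
structure TateData (W : WeierstrassCurve F) where
  u : F
  x₁ : F
  lam : F
  y₁ : F
  b : F
  c : F
  u_ne : u ≠ 0
  b_ne : b ≠ 0
  equation : W.toAffine.Equation x₁ y₁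
  rel₁ : W.a₁ + 2 * lam = u * (1 - c)
  rel₂ : W.a₂ + 3 * x₁ - lam * W.a₁ - lam ^ 2 = -b * u ^ 2
  rel₃ : W.a₃ + W.a₁ * x₁ + 2 * y₁ = -b * u ^ 3
  rel₄ : 3 * x₁ ^ 2 + 2 * W.a₂ * x₁ + W.a₄ - W.a₁ * y₁ = lam * (W.a₃ + W.a₁ * x₁ + 2 * y₁)

/-- The Tate normal form curve `y² + (1-c)xy - by = x³ - bx²`. -/
def tateCurve (b c : F) : WeierstrassCurve F := ⟨1 - c, -b, -b, 0, 0⟩

namespace TateData

variable {W : WeierstrassCurve F} (T : TateData W)

/-- `R` has coordinates `(X, Y)` in the Tate normal form given by `T`. -/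
def Coords (R : W.toAffine.Point) (X Y : F) : Prop :=
  HasXY R (T.x₁ + T.u ^ 2 * X) (T.y₁ + T.lam * T.u ^ 2 * X + T.u ^ 3 * Y)

theorem Coords.pointX_eq {T : TateData W} {R : W.toAffine.Point} {X Y : F}
    (h : T.Coords R X Y) : pointX R = T.x₁ + T.u ^ 2 * X :=
  HasXY.pointX_eq h

theorem variableChange_eq :
    (⟨Units.mk0 T.u T.u_ne, T.x₁, T.lam, T.y₁⟩ : VariableChange F) • W = tateCurve T.b T.c := by
  have hu := T.u_ne
  have he := (Affine.equation_iff _ _).mp T.equation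
  ext
  · simp only [variableChange_a₁, tateCurve, Units.val_inv_eq_inv_val, Units.val_mk0]
    field_simp
    linear_combination T.rel₁
  · simp only [variableChange_a₂, tateCurve, Units.val_inv_eq_inv_val, Units.val_mk0]
    field_simp
    linear_combination T.rel₂
  · simp only [variableChange_a₃, tateCurve, Units.val_inv_eq_inv_val, Units.val_mk0]
    field_simp
    linear_combination T.rel₃
  · simp only [variableChange_a₄, tateCurve, Units.val_inv_eq_inv_val, Units.val_mk0]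
    field_simp
    linear_combination T.rel₄
  · simp only [variableChange_a₆, tateCurve, Units.val_inv_eq_inv_val, Units.val_mk0]
    field_simp
    linear_combination -he

/-- The discriminant of `W` in terms of the Tate normal form. -/
theorem Δ_eq : W.Δ = T.u ^ 12 * (tateCurve T.b T.c).Δ := by
  rw [← T.variableChange_eq, variableChange_Δ, Units.val_inv_eq_inv_val, Units.val_mk0]
  field_simp [T.u_ne]

/-- `b₂` of `W` in terms of the Tate normal form. -/
theorem b₂_eq : W.b₂ + 12 * T.x₁ = T.u ^ 2 * (tateCurve T.b T.c).b₂ := by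
  rw [← T.variableChange_eq, variableChange_b₂, Units.val_inv_eq_inv_val, Units.val_mk0]
  field_simp [T.u_ne]

/-- The chord rule in Tate coordinates. -/
theorem coords_add [DecidableEq F] {Q R : W.toAffine.Point} {X₁ Y₁ X₂ Y₂ : F}
    (hQ : T.Coords Q X₁ Y₁) (hR : T.Coords R X₂ Y₂) (hX : X₁ ≠ X₂) {L X Y : F}
    (hL : L * (X₁ - X₂) = Y₁ - Y₂)
    (hXv : X = L ^ 2 + (1 - T.c) * L + T.b - X₁ - X₂)
    (hYv : Y = -(L * (X - X₁) + Y₁) - (1 - T.c) * X + T.b) :
    T.Coords (Q + R) X Y := by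
  obtain ⟨h₁, rfl⟩ := hQ
  obtain ⟨h₂, rfl⟩ := hR
  have hu := T.u_ne
  have hne : T.x₁ + T.u ^ 2 * X₁ ≠ T.x₁ + T.u ^ 2 * X₂ := by
    intro h
    exact hX (mul_left_cancel₀ (pow_ne_zero 2 hu) (add_left_cancel h))
  have hslope : W.toAffine.slope (T.x₁ + T.u ^ 2 * X₁) (T.x₁ + T.u ^ 2 * X₂)
      (T.y₁ + T.lam * T.u ^ 2 * X₁ + T.u ^ 3 * Y₁) (T.y₁ + T.lam * T.u ^ 2 * X₂ + T.u ^ 3 * Y₂)
      = T.lam + T.u * L := by
    rw [Affine.slope_of_X_ne hne, div_eq_iff (sub_ne_zero.mpr hne)]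
    linear_combination -T.u ^ 3 * hL
  have hx : W.toAffine.addX (T.x₁ + T.u ^ 2 * X₁) (T.x₁ + T.u ^ 2 * X₂) (T.lam + T.u * L)
      = T.x₁ + T.u ^ 2 * X := by
    simp only [Affine.addX]
    linear_combination T.u * L * T.rel₁ - T.rel₂ - T.u ^ 2 * hXv
  have hy : W.toAffine.addY (T.x₁ + T.u ^ 2 * X₁) (T.x₁ + T.u ^ 2 * X₂)
      (T.y₁ + T.lam * T.u ^ 2 * X₁ + T.u ^ 3 * Y₁) (T.lam + T.u * L)
      = T.y₁ + T.lam * T.u ^ 2 * X + T.u ^ 3 * Y := by
    simp only [Affine.addY, Affine.negAddY, hx, Affine.negY]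
    linear_combination -T.u ^ 2 * X * T.rel₁ - T.rel₃ - T.u ^ 3 * hYv
  exact HasXY.congr ⟨_, Affine.Point.add_of_X_ne hne⟩ (by rw [hslope, hx])
    (by rw [hslope, hy])

variable [DecidableEq F] {P : W.toAffine.Point}

/-- `P` is the point at which `T` is normalised. -/
def IsAt (P : W.toAffine.Point) : Prop :=
  T.Coords P 0 0 ∧ T.Coords (P + P) T.b (T.b * T.c)

end TateData

section multiples

variable [DecidableEq F] {W : WeierstrassCurve F} {P : W.toAffine.Point}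

theorem exists_tateData (h2 : P + P ≠ 0) (h3 : P + P ≠ -P) :
    ∃ T : TateData W, T.IsAt P := by
  cases P with
  | zero => exact absurd (add_zero _) h2
  | some x₁ y₁ h₁ =>
    have hy : y₁ ≠ W.toAffine.negY x₁ y₁ := fun h => h2 (Affine.Point.add_self_of_Y_eq h)
    set l := W.toAffine.slope x₁ x₁ y₁ y₁ with hl
    set A₁ := W.a₁ + 2 * l with hA₁
    set A₂ := W.a₂ + 3 * x₁ - l * W.a₁ - l ^ 2 with hA₂
    set A₃ := W.a₃ + W.a₁ * x₁ + 2 * y₁ with hA₃
    have hA₃0 : A₃ ≠ 0 := by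
      intro h
      apply hy
      simp only [Affine.negY]
      linear_combination h
    have hl' : 3 * x₁ ^ 2 + 2 * W.a₂ * x₁ + W.a₄ - W.a₁ * y₁ = l * A₃ := by
      rw [hl, Affine.slope_of_Y_ne rfl hy, Affine.negY]
      have : y₁ - (-y₁ - W.a₁ * x₁ - W.a₃) = A₃ := by rw [hA₃]; ring
      rw [this, div_mul_cancel₀ _ hA₃0]
    have h22 := Affine.Point.add_self_of_Y_ne (W := W) (h₁ := h₁) hy
    have hA₂0 : A₂ ≠ 0 := by
      intro h
      have hx : W.toAffine.addX x₁ x₁ l = x₁ := by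
        simp only [Affine.addX]
        linear_combination -h
      rcases (Affine.Point.X_eq_iff (h₁ := Affine.nonsingular_add h₁ h₁ fun hxy => hy hxy.right)
        (h₂ := h₁)).mp hx with e | e
      · exact Affine.Point.some_ne_zero h₁ (add_eq_left.mp (h22.trans e))
      · exact h3 (h22.trans e)
    have hu0 : A₃ / A₂ ≠ 0 := div_ne_zero hA₃0 hA₂0
    refine ⟨⟨A₃ / A₂, x₁, l, y₁, -A₂ ^ 3 / A₃ ^ 2, 1 - A₁ * A₂ / A₃, hu0,
      div_ne_zero (neg_ne_zero.mpr (pow_ne_zero 3 hA₂0)) (pow_ne_zero 2 hA₃0), h₁.1,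
      ?_, ?_, ?_, hl'⟩, ⟨?_, ?_⟩, ?_⟩
    · field_simp; ring
    · field_simp; ring
    · field_simp; ring
    · simpa using h₁
    · simp
    · rw [h22]
      have hx : W.toAffine.addX x₁ x₁ l =
          x₁ + (A₃ / A₂) ^ 2 * (-A₂ ^ 3 / A₃ ^ 2) := by
        field_simp
        simp only [Affine.addX]
        linear_combination hA₂
      have hy' : W.toAffine.addY x₁ x₁ y₁ l = y₁ + l * (A₃ / A₂) ^ 2 * (-A₂ ^ 3 / A₃ ^ 2) +
          (A₃ / A₂) ^ 3 * ((-A₂ ^ 3 / A₃ ^ 2) * (1 - A₁ * A₂ / A₃)) := by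
        simp only [Affine.addY, Affine.negAddY, hx, Affine.negY]
        field_simp
        rw [hA₁, hA₂, hA₃]
        ring
      exact HasXY.congr ⟨_, rfl⟩ hx hy'

theorem pointX_ne {Q R : W.toAffine.Point} (hQ : Q ≠ 0) (hR : R ≠ 0) (h₁ : Q ≠ R)
    (h₂ : Q + R ≠ 0) : pointX Q ≠ pointX R := by
  cases Q with
  | zero => exact absurd rfl hQ
  | some x y h =>
    cases R with
    | zero => exact absurd rfl hR
    | some x' y' h' =>
      intro e
      rcases (Affine.Point.X_eq_iff (h₁ := h) (h₂ := h')).mp e with e | e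
      · exact h₁ e
      · exact h₂ (eq_neg_iff_add_eq_zero.mp e)

theorem nsmul_ne_zero_of_prime {p : ℕ} (hp : p.Prime) (hP : P ≠ 0) (hpP : p • P = 0) {k : ℕ}
    (hk : ¬ p ∣ k) : k • P ≠ 0 := by
  have := Fact.mk hp
  intro h
  exact hk ((addOrderOf_eq_prime hpP hP) ▸ addOrderOf_dvd_of_nsmul_eq_zero h)

/-- `x(iP) ≠ x(jP)` when `i ≢ ±j` modulo the prime order of `P`. -/
theorem pointX_nsmul_ne {p : ℕ} (hp : p.Prime) (hP : P ≠ 0) (hpP : p • P = 0) {i j : ℕ}
    (hji : j < i) (hj : ¬ p ∣ j) (hi : ¬ p ∣ i) (hd : ¬ p ∣ i - j) (hs : ¬ p ∣ i + j) :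
    pointX (i • P) ≠ pointX (j • P) := by
  refine pointX_ne (nsmul_ne_zero_of_prime hp hP hpP hi) (nsmul_ne_zero_of_prime hp hP hpP hj)
    (fun h => ?_) (fun h => ?_)
  · refine nsmul_ne_zero_of_prime hp hP hpP hd ?_
    rw [sub_nsmul P hji.le, h, add_neg_cancel]
  · rw [← add_nsmul] at h
    exact nsmul_ne_zero_of_prime hp hP hpP hs h

theorem pointX_nsmul_eq {p : ℕ} (hpP : p • P = 0) {i j : ℕ} (h : i + j = p) :
    pointX (i • P) = pointX (j • P) := by
  have : i • P = -(j • P) := by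
    rw [eq_neg_iff_add_eq_zero, ← add_nsmul, h, hpP]
  rw [this, pointX_neg]

/-- The first four multiples of a point of prime order at least `5`. -/
theorem exists_tate_coords {p : ℕ} (hp : p.Prime) (h5 : 5 ≤ p) (hP : P ≠ 0) (hpP : p • P = 0) :
    ∃ T : TateData W, T.c ≠ 0 ∧ T.Coords (1 • P) 0 0 ∧ T.Coords (2 • P) T.b (T.b * T.c) ∧
      T.Coords (3 • P) T.c (T.b - T.c) := by
  have hnd : ∀ k, 0 < k → k < p → ¬ p ∣ k := fun k h0 hk h => absurd (Nat.le_of_dvd h0 h) (by omega)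
  have h2 : P + P ≠ 0 := by
    rw [← two_nsmul]
    exact nsmul_ne_zero_of_prime hp hP hpP (hnd 2 (by norm_num) (by omega))
  have h3 : P + P ≠ -P := by
    intro h
    refine nsmul_ne_zero_of_prime hp hP hpP (hnd 3 (by norm_num) (by omega)) ?_
    rw [succ_nsmul, two_nsmul, h, neg_add_cancel]
  obtain ⟨T, hT1, hT2⟩ := exists_tateData h2 h3
  have c1 : T.Coords (1 • P) 0 0 := by rwa [one_nsmul]
  have c2 : T.Coords (2 • P) T.b (T.b * T.c) := by rwa [two_nsmul]
  have c3 : T.Coords (3 • P) T.c (T.b - T.c) := by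
    rw [succ_nsmul]
    exact T.coords_add c2 hT1 T.b_ne (L := T.c) (by ring) (by ring) (by ring)
  refine ⟨T, fun hc => ?_, c1, c2, c3⟩
  refine pointX_nsmul_ne hp hP hpP (i := 3) (j := 1) (by norm_num) (hnd 1 one_pos (by omega))
    (hnd 3 (by norm_num) (by omega)) (hnd 2 (by norm_num) (by omega))
    (hnd 4 (by norm_num) (by omega)) ?_
  rw [c3.pointX_eq, c1.pointX_eq, hc]

/-- The relation `b = c` for a point of order five. -/
theorem exists_tate_five (hP : P ≠ 0) (h5P : 5 • P = 0) :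
    ∃ T : TateData W, T.c = T.b ∧ pointX (1 • P) = T.x₁ ∧
      pointX (2 • P) = T.x₁ + T.u ^ 2 * T.b := by
  obtain ⟨T, -, c1, c2, c3⟩ := exists_tate_coords (by norm_num) le_rfl hP h5P
  refine ⟨T, ?_, by rw [c1.pointX_eq]; ring, c2.pointX_eq⟩
  have := pointX_nsmul_eq h5P (show 3 + 2 = 5 from rfl)
  rw [c3.pointX_eq, c2.pointX_eq] at this
  exact mul_left_cancel₀ (pow_ne_zero 2 T.u_ne) (add_left_cancel this)

/-- The first six multiples of a point of prime order at least `7`, in the parameters `r, s`. -/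
theorem exists_tate_rs {p : ℕ} (hp : p.Prime) (h7 : 7 ≤ p) (hP : P ≠ 0) (hpP : p • P = 0) :
    ∃ (T : TateData W) (r s : F), T.b = r * s * (r - 1) ∧ T.c = s * (r - 1) ∧
      r ≠ 0 ∧ s ≠ 0 ∧ r ≠ 1 ∧ s ≠ 1 ∧
      T.Coords (1 • P) 0 0 ∧ T.Coords (2 • P) T.b (T.b * T.c) ∧
      T.Coords (3 • P) T.c (T.b - T.c) ∧
      T.Coords (4 • P) (r * (r - 1)) (r ^ 2 * (T.c - r + 1)) ∧
      T.Coords (5 • P) (r * s * (s - 1)) (r * s ^ 2 * (r - s)) ∧
      ∃ Y, T.Coords (6 • P) (s * (r - 1) * (r - s) / (s - 1) ^ 2) Y := by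
  have hnd : ∀ k, 0 < k → k < p → ¬ p ∣ k := fun k h0 hk h => absurd (Nat.le_of_dvd h0 h) (by omega)
  obtain ⟨T, hc, c1, c2, c3⟩ := exists_tate_coords hp (by omega) hP hpP
  obtain ⟨r, hbr⟩ : ∃ r, T.b = r * T.c := ⟨T.b / T.c, (div_mul_cancel₀ _ hc).symm⟩
  have hr1 : r ≠ 1 := by
    intro h
    refine pointX_nsmul_ne hp hP hpP (i := 3) (j := 2) (by norm_num) (hnd 2 (by norm_num) (by omega))
      (hnd 3 (by norm_num) (by omega)) (hnd 1 one_pos (by omega))
      (hnd 5 (by norm_num) (by omega)) ?_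
    rw [c3.pointX_eq, c2.pointX_eq, hbr, h, one_mul]
  have hr0 : r ≠ 0 := fun h => T.b_ne (by rw [hbr, h, zero_mul])
  obtain ⟨s, hcs⟩ : ∃ s, T.c = s * (r - 1) :=
    ⟨T.c / (r - 1), (div_mul_cancel₀ _ (sub_ne_zero.mpr hr1)).symm⟩
  have hs0 : s ≠ 0 := fun h => hc (by rw [hcs, h, zero_mul])
  have c4 : T.Coords (4 • P) (r * (r - 1)) (r ^ 2 * (T.c - r + 1)) := by
    rw [succ_nsmul]
    refine T.coords_add c3 (by simpa using c1) hc (L := r - 1) ?_ ?_ ?_
    · rw [hbr]; ring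
    · rw [hbr]; ring
    · rw [hbr]; ring
  have hr4 : r * (r - 1) ≠ 0 := mul_ne_zero hr0 (sub_ne_zero.mpr hr1)
  have c5 : T.Coords (5 • P) (r * s * (s - 1)) (r * s ^ 2 * (r - s)) := by
    rw [succ_nsmul]
    refine T.coords_add c4 (by simpa using c1) hr4 (L := r * (s - 1)) ?_ ?_ ?_
    · rw [hcs]; ring
    · rw [hbr, hcs]; ring
    · rw [hbr, hcs]; ring
  have hs1 : s ≠ 1 := by
    intro h
    refine pointX_nsmul_ne hp hP hpP (i := 5) (j := 1) (by norm_num) (hnd 1 one_pos (by omega))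
      (hnd 5 (by norm_num) (by omega)) (hnd 4 (by norm_num) (by omega))
      (hnd 6 (by norm_num) (by omega)) ?_
    rw [c5.pointX_eq, c1.pointX_eq, h]
    ring
  have hs1' : s - 1 ≠ 0 := sub_ne_zero.mpr hs1
  have c6 : ∃ Y, T.Coords (5 • P + P) (s * (r - 1) * (r - s) / (s - 1) ^ 2) Y :=
    ⟨_, T.coords_add c5 (by simpa using c1) (mul_ne_zero (mul_ne_zero hr0 hs0) hs1')
      (L := s * (r - s) / (s - 1)) (by field_simp; ring) (by rw [hbr, hcs]; field_simp; ring) rfl⟩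
  rw [← succ_nsmul] at c6
  exact ⟨T, r, s, by rw [hbr, hcs]; ring, hcs, hr0, hs0, hr1, hs1, c1, c2, c3, c4, c5, c6⟩

/-- The equation of `X₁(13)` in the parameters `r, s`. -/
def raw13 (r s : F) : F :=
  r ^ 3 - r ^ 2 * s ^ 4 + 5 * r ^ 2 * s ^ 3 - 9 * r ^ 2 * s ^ 2 + 4 * r ^ 2 * s - 2 * r ^ 2
    - r * s ^ 3 + 6 * r * s ^ 2 - 3 * r * s + r - s ^ 3

/-- Multiples of a point of order thirteen. -/
theorem exists_tate_thirteen (hP : P ≠ 0) (h13 : 13 • P = 0) :
    ∃ (T : TateData W) (r s : F), T.b = r * s * (r - 1) ∧ T.c = s * (r - 1) ∧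
      s ≠ 1 ∧ raw13 r s = 0 ∧
      pointX (1 • P) = T.x₁ ∧
      pointX (2 • P) = T.x₁ + T.u ^ 2 * (r * s * (r - 1)) ∧
      pointX (3 • P) = T.x₁ + T.u ^ 2 * (s * (r - 1)) ∧
      pointX (4 • P) = T.x₁ + T.u ^ 2 * (r * (r - 1)) ∧
      pointX (5 • P) = T.x₁ + T.u ^ 2 * (r * s * (s - 1)) ∧
      pointX (6 • P) = T.x₁ + T.u ^ 2 * (s * (r - 1) * (r - s) / (s - 1) ^ 2) := by
  have hp : Nat.Prime 13 := by norm_num
  obtain ⟨T, r, s, hb, hc, hr0, hs0, hr1, hs1, c1, c2, c3, c4, c5, Y6, c6⟩ :=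
    exists_tate_rs hp (by norm_num) hP h13
  have hs1' : s - 1 ≠ 0 := sub_ne_zero.mpr hs1
  have h43 : r * (r - 1) ≠ T.c := by
    intro h
    refine pointX_nsmul_ne hp hP h13 (i := 4) (j := 3) (by norm_num) (by decide) (by decide)
      (by decide) (by decide) ?_
    rw [c4.pointX_eq, c3.pointX_eq, h]
  have hd : r - s ≠ 0 := by
    intro h
    exact h43 (by rw [hc]; linear_combination (r - 1) * h)
  have c7 := T.coords_add c4 c3 h43 (L := (r ^ 2 * (s - 1) - s * (r - 1)) / (r - s))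
    (by rw [hb, hc]; field_simp; ring) rfl rfl
  rw [← add_nsmul] at c7
  have e := pointX_nsmul_eq h13 (show 7 + 6 = 13 from rfl)
  rw [c7.pointX_eq, c6.pointX_eq] at e
  replace e := mul_left_cancel₀ (pow_ne_zero 2 T.u_ne) (add_left_cancel e)
  refine ⟨T, r, s, hb, hc, hs1, ?_, by rw [c1.pointX_eq]; ring, by rw [c2.pointX_eq, hb],
    by rw [c3.pointX_eq, hc], c4.pointX_eq, c5.pointX_eq, c6.pointX_eq⟩
  rw [hb, hc] at e
  field_simp at e
  have key : (r - 1) * s * raw13 r s = 0 := by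
    rw [raw13]
    linear_combination -e
  simpa [sub_ne_zero.mpr hr1, hs0] using key

end multiples

end Fermat.Agent.SmallLevels
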