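/-
A Galois-stable line in `E[p]`: generator, and rationality of fixed expressions.
-/
import Fermat.Agent.SmallLevels.Tate
import Fermat.Agent.ECTorsion.Galois
import Fermat.Prelude.Def_FLTPrelim_GaloisRep
import Fermat.Prelude.Def_FLTPrelim_CofixedLine
import Mathlib.FieldTheory.Galois.Infinite
import Mathlib.FieldTheory.IsAlgClosed.AlgebraicClosure
import Mathlib.FieldTheory.AbsoluteGaloisGroup

set_option autoImplicit false

open WeierstrassCurve WeierstrassCurve.Affine WeierstrassCurve.Affine.Point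
open scoped WeierstrassCurve.Affine

namespace Fermat.Agent.SmallLevels

local notation "ℚ̄" => AlgebraicClosure ℚ

theorem exists_rat_of_fixed {z : ℚ̄} (h : ∀ σ : ℚ̄ ≃ₐ[ℚ] ℚ̄, σ z = z) : ∃ q : ℚ, (q : ℚ̄) = z := by
  have : IsAlgClosure ℚ ℚ̄ := ⟨inferInstance, AlgebraicClosure.isAlgebraic ℚ⟩
  have : Algebra.IsAlgebraic ℚ ℚ̄ := AlgebraicClosure.isAlgebraic ℚ
  have : IsGalois ℚ ℚ̄ := isGalois_iff.mpr ⟨inferInstance, IsAlgClosure.normal ℚ ℚ̄⟩
  obtain ⟨q, hq⟩ := (InfiniteGalois.mem_range_algebraMap_iff_fixed z).mpr h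
  exact ⟨q, by rw [← hq, eq_ratCast]⟩

theorem pointX_galois_smul (W : WeierstrassCurve ℚ) (σ : ℚ̄ ≃ₐ[ℚ] ℚ̄) (R : (W⁄ℚ̄).Point) :
    pointX (W := W⁄ℚ̄) (σ • R) = σ (pointX (W := W⁄ℚ̄) R) := by
  cases R with
  | zero => exact (map_zero σ).symm
  | some x y h => rfl

/-- A nontrivial proper Galois-stable subspace of `E[p]` is generated by a point that every
automorphism sends to a nonzero multiple of itself. -/
theorem exists_generator (W : WeierstrassCurve ℚ) (hΔ : W.Δ ≠ 0) {p : ℕ} (hp : p.Prime)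
    (N : Submodule (ZMod p) (Submodule.torsionBy ℤ (W⁄ℚ̄).Point p))
    (hN : IsGaloisStable ℚ N) (hbot : N ≠ ⊥) (htop : N ≠ ⊤) :
    ∃ Q : (W⁄ℚ̄).Point, Q ≠ 0 ∧ p • Q = 0 ∧
      ∀ σ : ℚ̄ ≃ₐ[ℚ] ℚ̄, ∃ k : ℕ, k < p ∧ k ≠ 0 ∧ σ • Q = k • Q := by
  have := Fact.mk hp
  have h2 := Fermat.Agent.ECTorsion.finrank_torsionBy_qbar W hΔ p
  have : FiniteDimensional (ZMod p) (Submodule.torsionBy ℤ (W⁄ℚ̄).Point p) :=
    Module.finite_of_finrank_pos (by omega)
  obtain ⟨x, hxN, hx0⟩ := (Submodule.ne_bot_iff N).mp hbot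
  have hlt := Submodule.finrank_lt htop
  rw [h2] at hlt
  have hle : Submodule.span (ZMod p) {x} ≤ N := by
    rwa [Submodule.span_singleton_le_iff_mem]
  have hspan : Submodule.span (ZMod p) {x} = N := by
    apply Submodule.eq_of_le_of_finrank_le hle
    rw [finrank_span_singleton hx0]
    omega
  refine ⟨x.1, fun h => hx0 (Subtype.ext h), ?_, fun σ => ?_⟩
  · have := x.2
    rw [Submodule.mem_torsionBy_iff] at this
    rwa [natCast_zsmul] at this
  · have hσ : σ • x ∈ Submodule.span (ZMod p) {x} := by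
      rw [hspan]
      exact hN σ x hxN
    obtain ⟨a, ha⟩ := Submodule.mem_span_singleton.mp hσ
    refine ⟨a.val, ZMod.val_lt a, fun h0 => hx0 ?_, ?_⟩
    · rw [(ZMod.val_eq_zero a).mp h0, zero_smul] at ha
      rw [← one_smul (ℚ̄ ≃ₐ[ℚ] ℚ̄) x, ← inv_mul_cancel σ, mul_smul, ← ha, smul_zero]
    · have : a • x = a.val • x := by
        rw [← Nat.cast_smul_eq_nsmul (ZMod p) a.val x, ZMod.natCast_zmod_val]
      have e := congrArg Subtype.val (ha.symm.trans this)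
      exact e

theorem exists_nsmul_pointX_galois (W : WeierstrassCurve ℚ) {Q : (W⁄ℚ̄).Point}
    {σ : ℚ̄ ≃ₐ[ℚ] ℚ̄} {k : ℕ} (hk : σ • Q = k • Q) (i : ℕ) :
    σ (pointX (W := W⁄ℚ̄) (i • Q)) = pointX (W := W⁄ℚ̄) ((i * k) • Q) := by
  rw [← pointX_galois_smul, mul_nsmul' Q i k, ← hk]
  congr 1
  exact map_nsmul (DistribSMul.toAddMonoidHom _ σ) i Q

end Fermat.Agent.SmallLevels
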