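/-
No rational stable subgroup of order 13 on a curve with square discriminant.

For a point `Q` of order 13 let `z n = x(2^n Q)` (period 6, permuted cyclically by Galois),
`Π = ∏ (z n - z (n+1))` and `w` the cubic cyclic form `form13`. Then
`w² Π = 9 (13 Π² + 6 Π Δ + Δ²)`, so `h = 13 Π / Δ` and `w` are rational and
`h (h² + 6 h + 13)` is a square when `Δ` is.
-/
import Fermat.Agent.SmallLevels.Line
import Fermat.Agent.Descent.NegDisc

set_option autoImplicit false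

open WeierstrassCurve WeierstrassCurve.Affine WeierstrassCurve.Affine.Point
open scoped WeierstrassCurve.Affine

namespace Fermat.Agent.SmallLevels.Thirteen

section ring

variable {R : Type*} [CommRing R]

/-- Product of the differences of consecutive entries of a six-cycle. -/
def prod13 (z : Fin 6 → R) : R :=
  (z 0 - z 1) * (z 1 - z 2) * (z 2 - z 3) * (z 3 - z 4) * (z 4 - z 5) * (z 5 - z 0)

/-- The weight six cyclic form. -/
def form13 (z : Fin 6 → R) : R :=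
  (z 0 - z 1) ^ 2 * ((z 0 - z 1) + 3 * ((z 2 - z 3) + (z 3 - z 4))) +
  (z 1 - z 2) ^ 2 * ((z 1 - z 2) + 3 * ((z 3 - z 4) + (z 4 - z 5))) +
  (z 2 - z 3) ^ 2 * ((z 2 - z 3) + 3 * ((z 4 - z 5) + (z 5 - z 0))) +
  (z 3 - z 4) ^ 2 * ((z 3 - z 4) + 3 * ((z 5 - z 0) + (z 0 - z 1))) +
  (z 4 - z 5) ^ 2 * ((z 4 - z 5) + 3 * ((z 0 - z 1) + (z 1 - z 2))) +
  (z 5 - z 0) ^ 2 * ((z 5 - z 0) + 3 * ((z 1 - z 2) + (z 2 - z 3)))

theorem prod13_shift (z : Fin 6 → R) (m : Fin 6) : prod13 (fun n => z (n + m)) = prod13 z := by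
  fin_cases m <;> simp only [prod13] <;> simp <;> ring

theorem form13_shift (z : Fin 6 → R) (m : Fin 6) : form13 (fun n => z (n + m)) = form13 z := by
  fin_cases m <;> simp only [form13] <;> simp <;> ring

theorem prod13_map {S : Type*} [CommRing S] (f : R →+* S) (z : Fin 6 → R) :
    prod13 (f ∘ z) = f (prod13 z) := by
  simp [prod13]

theorem form13_map {S : Type*} [CommRing S] (f : R →+* S) (z : Fin 6 → R) :
    form13 (f ∘ z) = f (form13 z) := by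
  simp [form13, map_ofNat]

end ring

section identity

variable {F : Type*} [Field F]

/-- The `x`-coordinates of `2^n P`, `n < 6`, in Tate normal form. -/
def tateX (r s : F) : Fin 6 → F :=
  ![0, r * s * (r - 1), r * (r - 1), r * s * (s - 1), s * (r - 1),
    s * (r - 1) * (r - s) / (s - 1) ^ 2]

/-- Polynomial factor of `Π`. -/
def polyP (r s : F) : F :=
      (s - 2) * r ^ 3
      + (-2 * s ^ 3 + 6 * s ^ 2 - 6 * s + 5) * r ^ 2
      + (s ^ 5 - 4 * s ^ 4 + 7 * s ^ 3 - 10 * s ^ 2 + 7 * s - 4) * r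
      + (s ^ 4 - 2 * s ^ 3 + 3 * s ^ 2 - 2 * s + 1)

/-- Polynomial factor of the discriminant. -/
def polyD (r s : F) : F :=
      (s ^ 3 - 8 * s ^ 2 + 16 * s) * r ^ 2
      + (-2 * s ^ 3 + 5 * s ^ 2 - 20 * s) * r
      + (s ^ 3 + 3 * s ^ 2 + 3 * s + 1)

/-- Polynomial factor of the weight six form. -/
def polyW (r s : F) : F :=
      (3 * s ^ 2 - 3 * s) * r ^ 5
      + (3 * s ^ 7 - 24 * s ^ 6 + 75 * s ^ 5 - 117 * s ^ 4 + 90 * s ^ 3 - 36 * s ^ 2 + 9 * s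
      + 3) * r ^ 4
      + (-3 * s ^ 8 + 24 * s ^ 7 - 72 * s ^ 6 + 96 * s ^ 5 - 48 * s ^ 4 + 6 * s ^ 3
      - 12 * s ^ 2 + 3 * s - 6) * r ^ 3
      + (-6 * s ^ 7 + 42 * s ^ 6 - 96 * s ^ 5 + 93 * s ^ 4 - 36 * s ^ 3 + 21 * s ^ 2 - 3 * s
      + 3) * r ^ 2
      + (-3 * s ^ 7 + 6 * s ^ 6 - 6 * s ^ 4 - 12 * s ^ 3 + 6 * s ^ 2 - 3 * s) * r
      + (3 * s ^ 4)

/-- The certificate. -/
def polyQ (r s : F) : F :=
      (9 * s ^ 5 - 36 * s ^ 4 + 45 * s ^ 3 - 18 * s ^ 2) * r ^ 11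
      + (18 * s ^ 10 - 306 * s ^ 9 + 1890 * s ^ 8 - 6030 * s ^ 7 + 11214 * s ^ 6
      - 12672 * s ^ 5 + 8667 * s ^ 4 - 3348 * s ^ 3 + 531 * s ^ 2 + 36 * s) * r ^ 10
      + (9 * s ^ 15 - 198 * s ^ 14 + 1890 * s ^ 13 - 10368 * s ^ 12 + 36639 * s ^ 11
      - 88560 * s ^ 10 + 151776 * s ^ 9 - 190008 * s ^ 8 + 181161 * s ^ 7 - 139770 * s ^ 6
      + 90261 * s ^ 5 - 45450 * s ^ 4 + 14832 * s ^ 3 - 2016 * s ^ 2 - 189 * s - 18) * r ^ 9
      + (-81 * s ^ 15 + 1512 * s ^ 14 - 12663 * s ^ 13 + 63063 * s ^ 12 - 207747 * s ^ 11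
      + 476532 * s ^ 10 - 781272 * s ^ 9 + 927558 * s ^ 8 - 805770 * s ^ 7 + 523521 * s ^ 6
      - 264942 * s ^ 5 + 105975 * s ^ 4 - 29943 * s ^ 3 + 3933 * s ^ 2 + 324 * s + 81) * r ^ 8
      + (27 * s ^ 16 - 153 * s ^ 15 - 1593 * s ^ 14 + 22689 * s ^ 13 - 127881 * s ^ 12
      + 435384 * s ^ 11 - 1000512 * s ^ 10 + 1622232 * s ^ 9 - 1886994 * s ^ 8
      + 1578681 * s ^ 7 - 950616 * s ^ 6 + 419292 * s ^ 5 - 140427 * s ^ 4 + 34776 * s ^ 3
      - 4842 * s ^ 2 - 243 * s - 144) * r ^ 7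
      + (-27 * s ^ 17 + 387 * s ^ 16 - 2637 * s ^ 15 + 12393 * s ^ 14 - 50058 * s ^ 13
      + 177408 * s ^ 12 - 503937 * s ^ 11 + 1075446 * s ^ 10 - 1682514 * s ^ 9
      + 1908882 * s ^ 8 - 1550178 * s ^ 7 + 884871 * s ^ 6 - 352035 * s ^ 5 + 100809 * s ^ 4
      - 21681 * s ^ 3 + 3348 * s ^ 2 + 153 * s + 126) * r ^ 6
      + (9 * s ^ 18 - 135 * s ^ 17 + 819 * s ^ 16 - 2385 * s ^ 15 + 2520 * s ^ 14
      + 8505 * s ^ 13 - 56619 * s ^ 12 + 189558 * s ^ 11 - 435744 * s ^ 10 + 710217 * s ^ 9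
      - 818568 * s ^ 8 + 655848 * s ^ 7 - 351765 * s ^ 6 + 119448 * s ^ 5 - 25515 * s ^ 4
      + 3735 * s ^ 3 - 837 * s ^ 2 - 171 * s - 54) * r ^ 5
      + (36 * s ^ 17 - 486 * s ^ 16 + 2556 * s ^ 15 - 7830 * s ^ 14 + 16947 * s ^ 13
      - 28656 * s ^ 12 + 36135 * s ^ 11 - 24984 * s ^ 10 - 8262 * s ^ 9 + 37071 * s ^ 8
      - 33336 * s ^ 7 + 7524 * s ^ 6 + 9117 * s ^ 5 - 6966 * s ^ 4 + 2268 * s ^ 3
      - 126 * s ^ 2 + 117 * s + 9) * r ^ 4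
      + (9 * s ^ 17 - 36 * s ^ 16 - 45 * s ^ 15 + 711 * s ^ 14 - 2862 * s ^ 13 + 7821 * s ^ 12
      - 16650 * s ^ 11 + 27162 * s ^ 10 - 33363 * s ^ 9 + 31662 * s ^ 8 - 24507 * s ^ 7
      + 15525 * s ^ 6 - 8172 * s ^ 5 + 2592 * s ^ 4 - 567 * s ^ 3 - 9 * s ^ 2 - 27 * s) * r ^ 3
      + (9 * s ^ 16 - 54 * s ^ 15 + 117 * s ^ 14 - 72 * s ^ 13 + 9 * s ^ 12 - 450 * s ^ 11
      + 1755 * s ^ 10 - 3375 * s ^ 9 + 4248 * s ^ 8 - 3528 * s ^ 7 + 2259 * s ^ 6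
      - 954 * s ^ 5 + 441 * s ^ 4 - 117 * s ^ 3 + 36 * s ^ 2) * r ^ 2
      + (-18 * s ^ 13 + 72 * s ^ 12 - 117 * s ^ 11 + 63 * s ^ 10 + 36 * s ^ 9 - 126 * s ^ 8
      + 45 * s ^ 7 + 18 * s ^ 6 - 72 * s ^ 5 + 27 * s ^ 4 - 9 * s ^ 3) * r
      + (9 * s ^ 10 - 18 * s ^ 9 + 27 * s ^ 8 - 18 * s ^ 7 + 9 * s ^ 6)

theorem reduced_identity (r s : F) :
    (r - s) * polyW r s ^ 2 * polyP r s
      - 9 * ((r - 1) ^ 2 * r ^ 3 * s ^ 2 * (s - 1) ^ 5) *
        (13 * ((r - s) * polyP r s) ^ 2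
          + 6 * ((r - s) * polyP r s) * ((r - 1) * (s - 1) ^ 3 * polyD r s)
          + ((r - 1) * (s - 1) ^ 3 * polyD r s) ^ 2) = polyQ r s * raw13 r s := by
  simp only [polyP, polyD, polyW, polyQ, raw13]
  ring

theorem tate_prod (r s : F) (hs : s - 1 ≠ 0) : prod13 (tateX r s) * (s - 1) ^ 3 =
    (r - 1) ^ 4 * r ^ 3 * s ^ 4 * (r - s) * polyP r s := by
  simp only [prod13, tateX, Matrix.cons_val, polyP]
  field_simp
  ring

theorem tate_form (r s : F) (hs : s - 1 ≠ 0) : form13 (tateX r s) * (s - 1) ^ 4 =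
    (r - 1) * s * polyW r s := by
  simp only [form13, tateX, Matrix.cons_val, polyW]
  field_simp
  ring

theorem tate_Δ (r s : F) : (tateCurve (r * s * (r - 1)) (s * (r - 1))).Δ =
    (r - 1) ^ 5 * r ^ 3 * s ^ 4 * polyD r s := by
  simp only [tateCurve, WeierstrassCurve.Δ, WeierstrassCurve.b₂, WeierstrassCurve.b₄,
    WeierstrassCurve.b₆, WeierstrassCurve.b₈, polyD]
  ring

theorem tate_identity (r s : F) (hs : s ≠ 1) (hF : raw13 r s = 0) :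
    form13 (tateX r s) ^ 2 * prod13 (tateX r s) =
      9 * (13 * prod13 (tateX r s) ^ 2
        + 6 * prod13 (tateX r s) * (tateCurve (r * s * (r - 1)) (s * (r - 1))).Δ
        + (tateCurve (r * s * (r - 1)) (s * (r - 1))).Δ ^ 2) := by
  have hs' : s - 1 ≠ 0 := sub_ne_zero.mpr hs
  have hPi := tate_prod r s hs'
  have hW := tate_form r s hs'
  have h := reduced_identity r s
  rw [hF, mul_zero] at h
  rw [tate_Δ]
  generalize prod13 (tateX r s) = Pi at *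
  generalize form13 (tateX r s) = w at *
  generalize polyP r s = P0 at *
  generalize polyW r s = W0 at *
  generalize polyD r s = D0 at *
  apply mul_right_cancel₀ (pow_ne_zero 11 hs')
  calc w ^ 2 * Pi * (s - 1) ^ 11
      = (w * (s - 1) ^ 4) ^ 2 * (Pi * (s - 1) ^ 3) := by ring
    _ = (r - 1) ^ 6 * r ^ 3 * s ^ 6 * ((r - s) * W0 ^ 2 * P0) := by rw [hW, hPi]; ring
    _ = 9 * (13 * (Pi * (s - 1) ^ 3) ^ 2 * (s - 1) ^ 5
          + 6 * (Pi * (s - 1) ^ 3) * ((r - 1) ^ 5 * r ^ 3 * s ^ 4 * D0) * (s - 1) ^ 8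
          + ((r - 1) ^ 5 * r ^ 3 * s ^ 4 * D0) ^ 2 * (s - 1) ^ 11) := by
        rw [hPi]
        linear_combination ((r - 1) ^ 6 * r ^ 3 * s ^ 6) * h
    _ = _ := by ring

end identity

section curve

variable {F : Type*} [Field F] [DecidableEq F] {W : WeierstrassCurve F}

/-- `x(2^n Q)`. -/
def orbitX (Q : W.toAffine.Point) (n : Fin 6) : F :=
  pointX ((2 ^ (n : ℕ) % 13) • Q)

theorem nsmul_mod {Q : W.toAffine.Point} (h13 : 13 • Q = 0) (a : ℕ) : (a % 13) • Q = a • Q := by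
  conv_rhs => rw [← Nat.mod_add_div a 13, add_nsmul, mul_nsmul, h13, smul_zero, add_zero]

theorem pointX_congr {Q : W.toAffine.Point} (h13 : 13 • Q = 0) {a b : ℕ}
    (h : a % 13 = b % 13 ∨ (a + b) % 13 = 0) : pointX (a • Q) = pointX (b • Q) := by
  rcases h with h | h
  · rw [← nsmul_mod h13 a, h, nsmul_mod h13 b]
  · have : a • Q = -(b • Q) := by
      rw [eq_neg_iff_add_eq_zero, ← add_nsmul, ← nsmul_mod h13, h, zero_nsmul]
    rw [this, pointX_neg]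

theorem orbitX_eq (Q : W.toAffine.Point) (h13 : 13 • Q = 0) :
    orbitX Q = ![pointX (1 • Q), pointX (2 • Q), pointX (4 • Q), pointX (5 • Q),
      pointX (3 • Q), pointX (6 • Q)] := by
  funext n
  fin_cases n <;> exact pointX_congr h13 (by decide)

theorem identity {Q : W.toAffine.Point} (hQ : Q ≠ 0) (h13 : 13 • Q = 0) :
    form13 (orbitX Q) ^ 2 * prod13 (orbitX Q) =
      9 * (13 * prod13 (orbitX Q) ^ 2 + 6 * prod13 (orbitX Q) * W.Δ + W.Δ ^ 2) := by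
  obtain ⟨T, r, s, hb, hc, hs, hF, e1, e2, e3, e4, e5, e6⟩ := exists_tate_thirteen hQ h13
  have hz : orbitX Q = fun n => T.x₁ + T.u ^ 2 * tateX r s n := by
    rw [orbitX_eq Q h13, e1, e2, e3, e4, e5, e6]
    funext n
    fin_cases n <;> simp [tateX]
  have hP : prod13 (orbitX Q) = T.u ^ 12 * prod13 (tateX r s) := by
    rw [hz]; simp only [prod13]; ring
  have hw : form13 (orbitX Q) = T.u ^ 6 * form13 (tateX r s) := by
    rw [hz]; simp only [form13]; ring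
  rw [hP, hw, T.Δ_eq, hb, hc]
  linear_combination T.u ^ 24 * tate_identity r s hs hF

theorem prod13_ne_zero {Q : W.toAffine.Point} (hQ : Q ≠ 0) (h13 : 13 • Q = 0) :
    prod13 (orbitX Q) ≠ 0 := by
  have h : ∀ i j, j < i → ¬ 13 ∣ j → ¬ 13 ∣ i → ¬ 13 ∣ i - j → ¬ 13 ∣ i + j →
      pointX (i • Q) ≠ pointX (j • Q) :=
    fun i j => pointX_nsmul_ne (by norm_num) hQ h13
  rw [orbitX_eq Q h13]
  simp only [prod13, Matrix.cons_val]
  repeat' apply mul_ne_zero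
  all_goals rw [sub_ne_zero]
  · exact (h 2 1 (by decide) (by decide) (by decide) (by decide) (by decide)).symm
  · exact (h 4 2 (by decide) (by decide) (by decide) (by decide) (by decide)).symm
  · exact (h 5 4 (by decide) (by decide) (by decide) (by decide) (by decide)).symm
  · exact h 5 3 (by decide) (by decide) (by decide) (by decide) (by decide)
  · exact (h 6 3 (by decide) (by decide) (by decide) (by decide) (by decide)).symm
  · exact h 6 1 (by decide) (by decide) (by decide) (by decide) (by decide)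

end curve

local notation "ℚ̄" => AlgebraicClosure ℚ

theorem exists_shift : ∀ k < 13, k ≠ 0 → ∃ m : Fin 6, ∀ n : Fin 6,
    (2 ^ (n : ℕ) % 13 * k) % 13 = (2 ^ ((n + m : Fin 6) : ℕ) % 13) % 13 ∨
      (2 ^ (n : ℕ) % 13 * k + 2 ^ ((n + m : Fin 6) : ℕ) % 13) % 13 = 0 := by
  decide

/-- No elliptic curve over `ℚ` with square discriminant has a Galois stable line in `E[13]`. -/
theorem no_stable_line (W : WeierstrassCurve ℚ) (d : ℚ) (hd : W.Δ = d ^ 2) (hd0 : d ≠ 0)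
    (N : Submodule (ZMod 13) (Submodule.torsionBy ℤ (W⁄ℚ̄).Point (13 : ℕ)))
    (hN : IsGaloisStable ℚ N) (hbot : N ≠ ⊥) (htop : N ≠ ⊤) : False := by
  have hΔ : W.Δ ≠ 0 := by rw [hd]; exact pow_ne_zero 2 hd0
  obtain ⟨Q, hQ, h13, hgal⟩ := exists_generator W hΔ (by norm_num) N hN hbot htop
  let z : Fin 6 → ℚ̄ := orbitX (W := W⁄ℚ̄) Q
  have hσ : ∀ σ : ℚ̄ ≃ₐ[ℚ] ℚ̄, ∃ m : Fin 6, σ ∘ z = fun n => z (n + m) := by
    intro σ
    obtain ⟨k, hk, hk0, hkQ⟩ := hgal σ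
    obtain ⟨m, hm⟩ := exists_shift k hk hk0
    refine ⟨m, funext fun n => ?_⟩
    show σ (orbitX (W := W⁄ℚ̄) Q n) = orbitX (W := W⁄ℚ̄) Q (n + m)
    rw [orbitX, exists_nsmul_pointX_galois W hkQ]
    exact pointX_congr h13 (hm n)
  obtain ⟨π, hπ⟩ := exists_rat_of_fixed (z := prod13 z) fun σ => by
    obtain ⟨m, hm⟩ := hσ σ
    exact (prod13_map (σ : ℚ̄ →+* ℚ̄) z).symm.trans ((congrArg prod13 hm).trans (prod13_shift z m))
  obtain ⟨w, hw⟩ := exists_rat_of_fixed (z := form13 z) fun σ => by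
    obtain ⟨m, hm⟩ := hσ σ
    exact (form13_map (σ : ℚ̄ →+* ℚ̄) z).symm.trans ((congrArg form13 hm).trans (form13_shift z m))
  have hπ0 : π ≠ 0 := by
    intro h
    apply prod13_ne_zero (W := W⁄ℚ̄) hQ h13
    show prod13 z = 0
    rw [← hπ, h, Rat.cast_zero]
  have hid := identity (W := W⁄ℚ̄) hQ h13
  have hΔ' : (W⁄ℚ̄).Δ = (W.Δ : ℚ̄) := by
    rw [show (W⁄ℚ̄).Δ = algebraMap ℚ ℚ̄ W.Δ from WeierstrassCurve.map_Δ .., eq_ratCast]
  rw [hΔ', show orbitX (W := W⁄ℚ̄) Q = z from rfl, ← hπ, ← hw] at hid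
  have hq : w ^ 2 * π = 9 * (13 * π ^ 2 + 6 * π * W.Δ + W.Δ ^ 2) := by exact_mod_cast hid
  rw [hd] at hq
  have h0 : 13 * π / d ^ 2 = 0 := by
    apply Fermat.Agent.Descent.x52 _ (13 * π * w / (3 * d ^ 3))
    field_simp
    linear_combination hq
  exact hπ0 (by simpa [hd0] using h0)

end Fermat.Agent.SmallLevels.Thirteen
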