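/-
The Frey curve has square discriminant; hence no stable line for exponent 13.
-/
import Fermat.Agent.SmallLevels.Thirteen

set_option autoImplicit false

open WeierstrassCurve WeierstrassCurve.Affine WeierstrassCurve.Affine.Point

namespace Fermat.Agent.SmallLevels

theorem freyCurve_Δ_eq_sq (P : FreyPackage) :
    P.freyCurve.Δ = (((P.a : ℚ) * P.b * P.c) ^ P.p / 16) ^ 2 := by
  have h : (P.a : ℚ) ^ P.p + (P.b : ℚ) ^ P.p = (P.c : ℚ) ^ P.p := by exact_mod_cast P.hFLT
  rw [mul_pow, mul_pow, ← h]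
  simp only [FreyPackage.freyCurve, WeierstrassCurve.Δ, WeierstrassCurve.b₂, WeierstrassCurve.b₄,
    WeierstrassCurve.b₆, WeierstrassCurve.b₈]
  ring

theorem frey_sqrt_ne_zero (P : FreyPackage) : ((P.a : ℚ) * P.b * P.c) ^ P.p / 16 ≠ 0 :=
  div_ne_zero (pow_ne_zero _ (mul_ne_zero (mul_ne_zero (Int.cast_ne_zero.mpr P.ha0)
    (Int.cast_ne_zero.mpr P.hb0)) (Int.cast_ne_zero.mpr P.hc0))) (by norm_num)

/-- The Frey curve has no Galois stable line of `13`-torsion. -/
theorem no_stable_line_thirteen (P : FreyPackage) (hp : P.p = 13) :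
    ¬ HasGaloisStableCofixedLine (K := AlgebraicClosure ℚ) ℚ P.freyCurve P.p := by
  rw [hp]
  rintro ⟨N, hN, hbot, htop, -⟩
  exact Thirteen.no_stable_line P.freyCurve _ (freyCurve_Δ_eq_sq P) (frey_sqrt_ne_zero P) N hN hbot htop

end Fermat.Agent.SmallLevels
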